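/-
S48 wall (W), HUB A1 (owner helper70): DEFINITIONS and the exact statements of the hub.
Definitions only (no theorems with content, no sorry).  See NOTES/blueprint-S48-W.md §3.

Conventions.  `τ` is the variable of `E_τ = ℂ/(ℤτ + ℤ)` (the blueprint's `τ_E`), the expansions are
in `u = uParam M τ = exp(2πiτ/M)` (S24 `HasPExp M`, `HasExp M`), `ζ : ℚ̄` with
`iota ζ = exp(2πi/M)`.   The formal `q` of `S48/W/Defs.lean` is this `u`:  `fricke M a` is the
expansion of `frickeFun M a 0` and `j(q^M)` is the expansion of `jFun`.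

* `xFun M r s τ      = 12 ℘((rτ + s)/M; ℤτ + ℤ) / (2πi)²`        (weight `2` on `Γ(M)`),
* `eqFun             = E₄ E₆ / Δ`                                 (weight `-2`, level one),
* `frickeFun M r s   = eqFun · xFun M r s`                        (weight `0` on `Γ(M)`),
* `xCoeff M ζ r s n` = the coefficient of `uⁿ` in `xFun M r s`, for `0 ≤ r < M`.
-/
import Mathlib
import Fermat.Agent.S48.W.Defs
import Fermat.Agent.S48.Eis1.Homog
import Fermat.Agent.S24.JFun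

set_option autoImplicit false

noncomputable section

namespace Fermat.Agent.S48WA1

open Fermat.Agent.S24 Fermat.Agent.S48.Eis1 Fermat.Agent.S48W UpperHalfPlane ModularCurve
open scoped MatrixGroups Real

/-- the division point `(r τ + s) / M`. -/
def divPt (M : ℕ) (r s : ℤ) (τ : ℍ) : ℂ := ((r : ℂ) * τ + s) / M

/-- `X_{(r,s)}(τ) = 12 ℘((rτ + s)/M; ℤτ + ℤ) / (2πi)²`. -/
def xFun (M : ℕ) (r s : ℤ) : Fun := fun τ =>
  12 * (latPair τ τ.im_pos).weierstrassP (divPt M r s τ) / (2 * π * Complex.I) ^ 2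

/-- `E₄ E₆ / Δ`. -/
def eqFun : Fun := fun τ =>
  ModularForm.E₄ τ * ModularForm.E₆ τ / ModularForm.discriminant τ

/-- the analytic **Fricke function** `F_{(r,s)} = (E₄ E₆ / Δ) · X_{(r,s)}`. -/
def frickeFun (M : ℕ) (r s : ℤ) : Fun := eqFun * xFun M r s

/-- `(r, s) ≢ (0, 0)` modulo `M`. -/
def IsNZ (M : ℕ) (r s : ℤ) : Prop := ¬ ((M : ℤ) ∣ r ∧ (M : ℤ) ∣ s)

/-- the coefficient of `uⁿ` in `X_{(r,s)}` (`0 ≤ r < M`, `ζ = e(1/M)`):
`[n = 0] (1 + [M ∣ r] 12 ζ^s/(1 - ζ^s)²) - 24 [M ∣ n ≠ 0] σ₁(n/M)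
   + 12 Σ_{d ∣ n} ([d ≡ r] (n/d) ζ^{s n/d} + [d ≡ -r] (n/d) ζ^{-s n/d})`. -/
def xCoeff (M : ℕ) (ζ : Kbar) (r s : ℤ) (n : ℕ) : Kbar :=
  (if n = 0 then 1 + (if (M : ℤ) ∣ r then 12 * (ζ ^ s / (1 - ζ ^ s) ^ 2) else 0) else 0)
    - 24 * (if n ≠ 0 ∧ M ∣ n then ∑ d ∈ (n / M).divisors, (d : Kbar) else 0)
    + 12 * ∑ d ∈ n.divisors,
        ((if ((d : ℕ) : ZMod M) = (r : ZMod M)
            then ((n / d : ℕ) : Kbar) * ζ ^ (s * ((n / d : ℕ) : ℤ)) else 0)
          + (if ((d : ℕ) : ZMod M) = -(r : ZMod M)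
            then ((n / d : ℕ) : Kbar) * ζ ^ (-(s * ((n / d : ℕ) : ℤ))) else 0))

/-- the row vector `(r, s) · γ`, first entry. -/
def actL (γ : SL(2, ℤ)) (r s : ℤ) : ℤ := r * γ 0 0 + s * γ 1 0

/-- the row vector `(r, s) · γ`, second entry. -/
def actR (γ : SL(2, ℤ)) (r s : ℤ) : ℤ := r * γ 0 1 + s * γ 1 1

/-! ### the statements of the hub -/

/-- (A1a) **`q`-expansion** of `X_{(r,s)}` at `∞`, `0 ≤ r < M`. -/
def XExpStatement : Prop :=
  ∀ (M : ℕ) [NeZero M] (ζ : Kbar), iota ζ = Complex.exp (2 * π * Complex.I / M) →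
    ∀ r s : ℤ, 0 ≤ r → r < M → IsNZ M r s →
      HasPExp M (xFun M r s) (PowerSeries.mk (xCoeff M ζ r s))

/-- (A1b) **weight 2**: `X_v(γτ) = (cτ + d)² X_{vγ}(τ)` for all `γ ∈ SL₂(ℤ)`. -/
def XSlashStatement : Prop :=
  ∀ (M : ℕ) [NeZero M] (r s : ℤ) (γ : SL(2, ℤ)) (τ : ℍ),
    xFun M r s (γ • τ) = jFac γ τ ^ 2 * xFun M (actL γ r s) (actR γ r s) τ

/-- (A1b') `X_v` depends only on `± v` modulo `M`. -/
def XPeriodStatement : Prop :=
  ∀ (M : ℕ) [NeZero M] (r s : ℤ), IsNZ M r s →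
    (∀ k l : ℤ, xFun M (r + M * k) (s + M * l) = xFun M r s) ∧
      xFun M (-r) (-s) = xFun M r s

/-- (A1-EQ) the expansion of `E₄ E₆ / Δ` is the formal `eisQuot`. -/
def EqExpStatement : Prop :=
  HasExp 1 eqFun (coeffEmb Kbar eisQuot)

/-- (A1d-1) every Fricke function is holomorphic on `ℍ`. -/
def FrickeHolStatement : Prop :=
  ∀ (M : ℕ) [NeZero M] (r s : ℤ), IsNZ M r s → IsHol (frickeFun M r s)

/-- (A1d-2) `SL₂(ℤ)` permutes the Fricke functions: `γ • F_v = F_{v γ⁻¹}`. -/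
def FrickeSmulStatement : Prop :=
  ∀ (M : ℕ) [NeZero M] (r s : ℤ) (γ : SL(2, ℤ)),
    γ • frickeFun M r s = frickeFun M (actL γ⁻¹ r s) (actR γ⁻¹ r s)

/-- (A1d-3) every Fricke function has an expansion at `∞` with coefficients in `ℚ̄`, and the
expansion of `F_{(a,0)}` is the formal `fricke M a`. -/
def FrickeExpStatement : Prop :=
  ∀ (M : ℕ) [NeZero M],
    (∀ r s : ℤ, IsNZ M r s → ∃ b : LaurentSeries Kbar, HasExp M (frickeFun M r s) b) ∧
      ∀ a : ℤ, 0 < a → a < M →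
        HasExp M (frickeFun M a 0) (coeffEmb Kbar (fricke M (a : ZMod M)))

/-- (A1-INV) a holomorphic `SL₂(ℤ)`-invariant function with an expansion at `∞` (coefficients in
`ℚ̄`, finite pole order) is a polynomial in `j` with coefficients in `ℚ̄`.
(`S24Inv.exists_aeval_of_bound` without the hypothesis `f ∈ AL M`.) -/
def InvariantStatement : Prop :=
  ∀ (M : ℕ) [NeZero M] (f : Fun) (a : LaurentSeries Kbar), IsHol f →
    (∀ γ : SL(2, ℤ), γ • f = f) → HasExp M f a →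
      ∃ P : Polynomial Kbar, Polynomial.aeval jFun P = f

/-- `f_a(τ) = F_{(a,0)}(Mτ)`: the Fricke function of the point `τ` of order `M` of
`ℂ/(ℤ Mτ + ℤ)` to the multiple `a`; its expansion in `q = e(τ)` is the formal `fricke M a`. -/
def frickeOne (M : ℕ) [NeZero M] (a : ℤ) : Fun := fun τ => frickeFun M a 0 (scale M τ)

/-- (A1c-1) the expansion of `f_a` in `q = e(τ)` is the formal `fricke M a`. -/
def FrickeOneExpStatement : Prop :=
  ∀ (M : ℕ) [NeZero M] (a : ℤ), ¬ (M : ℤ) ∣ a →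
    HasExp 1 (frickeOne M a) (coeffEmb Kbar (fricke M (a : ZMod M)))

/-- (A1c-2) `f_a ∘ γ = f_{α a}` for `γ = [α β; γ' δ] ∈ Γ₀(M)`. -/
def FrickeOneSmulStatement : Prop :=
  ∀ (M : ℕ) [NeZero M] (a : ℤ) (γ : SL(2, ℤ)), γ ∈ CongruenceSubgroup.Gamma0 M →
    ∀ τ : ℍ, frickeOne M a (γ • τ) = frickeOne M (a * γ 0 0) τ

/-- (A1-HOL) every `X_v` is holomorphic on `ℍ`. -/
def XHolStatement : Prop :=
  ∀ (M : ℕ) [NeZero M] (r s : ℤ), IsNZ M r s → IsHol (xFun M r s)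

/-- (A1d) **the Fricke functions are integral over `ℚ̄[j(q^M)]`** (formal version). -/
def FrickeIntegralStatement : Prop :=
  ∀ (M : ℕ) [NeZero M] (a : ZMod M), a ≠ 0 →
    ∃ P : Polynomial (Polynomial Kbar), P.Monic ∧
      Polynomial.eval₂
        (Polynomial.aeval (qExpand Kbar M (jqModC Kbar))).toRingHom
        (coeffEmb Kbar (fricke M a)) P = 0

end Fermat.Agent.S48WA1
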