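/-
S48 wall (W), HUB A1, seat INV (helper70): a holomorphic `SL₂(ℤ)`-invariant function with an
expansion at `∞` is a polynomial in `j` with coefficients in `ℚ̄`
(`S24Inv.exists_aeval_of_bound` without the hypothesis `f ∈ AL M`).
-/
import Mathlib
import Fermat.Agent.S48.W.A1.Defs
import Fermat.Agent.S24.Invariants

set_option autoImplicit false

noncomputable section

namespace Fermat.Agent.S48WA1

open Fermat.Agent.S24 Fermat.Agent.S24Inv UpperHalfPlane
open scoped MatrixGroups Manifold

theorem isHol_neg_a1 {f : Fun} (hf : IsHol f) : IsHol (-f) := by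
  have h : (-f : Fun) = algebraMap Kbar Fun (-1) * f := by
    ext τ
    simp
  rw [h]
  exact (isHol_algebraMap _).mul hf

theorem isHol_sub_a1 {f g : Fun} (hf : IsHol f) (hg : IsHol g) : IsHol (f - g) := by
  rw [sub_eq_add_neg]
  exact hf.add (isHol_neg_a1 hg)

theorem isHol_pow_a1 {f : Fun} (hf : IsHol f) (n : ℕ) : IsHol (f ^ n) := by
  induction n with
  | zero =>
      have h : (f ^ 0 : Fun) = algebraMap Kbar Fun 1 := by
        ext τ
        simp
      rw [h]
      exact isHol_algebraMap _
  | succ n ih =>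
      rw [pow_succ]
      exact ih.mul hf

theorem inv_of_bound (M : ℕ) [NeZero M] :
    ∀ (N : ℕ) (f : Fun), IsHol f → (∀ γ : SL(2, ℤ), γ • f = f) →
      ∀ a : LaurentSeries Kbar, HasExp M f a →
      (∀ n : ℤ, n < -((M : ℤ) * N) → a.coeff n = 0) →
      ∃ P : Polynomial Kbar, Polynomial.aeval jFun P = f := by
  intro N
  induction N with
  | zero =>
      intro f hf hinv a ha h0
      refine ⟨Polynomial.C (a.coeff 0), ?_⟩
      rw [Polynomial.aeval_C]
      exact (eq_algebraMap_of_no_pole hinv hf ha (by simpa using h0)).symm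
  | succ N ih =>
      intro f hf hinv a ha h0
      have hM : (0 : ℤ) < M := by exact_mod_cast Nat.pos_of_ne_zero (NeZero.ne M)
      set c : Kbar := a.coeff (-((M : ℤ) * ((N + 1 : ℕ) : ℤ))) with hc
      set J : LaurentSeries Kbar := ModularCurve.qExpand Kbar M (ModularCurve.jqModC Kbar)
        with hJ
      have hJexp : HasExp M jFun J := hasExp_jFun M
      have hg_exp : HasExp M (f - algebraMap Kbar Fun c * jFun ^ (N + 1))
          (a - algebraMap Kbar (LaurentSeries Kbar) c * J ^ (N + 1)) :=
        ha.sub ((HasExp.algebraMap M c).mul (hasExp_pow hJexp (N + 1)))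
      have hg_mem : IsHol (f - algebraMap Kbar Fun c * jFun ^ (N + 1)) :=
        isHol_sub_a1 hf ((isHol_algebraMap c).mul (isHol_pow_a1 isHol_jFun _))
      have hg_inv : ∀ γ : SL(2, ℤ), γ • (f - algebraMap Kbar Fun c * jFun ^ (N + 1))
          = f - algebraMap Kbar Fun c * jFun ^ (N + 1) := by
        intro γ
        have h1 : γ • (algebraMap Kbar Fun c) = algebraMap Kbar Fun c := by
          ext τ; simp
        rw [smul_sub, smul_mul', smul_pow', hinv γ, jFun_smul γ, h1]
      have hT : ModularGroup.T • f = f := hinv _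
      have hcoeff : ∀ n : ℤ, n < -((M : ℤ) * (N : ℤ)) →
          (a - algebraMap Kbar (LaurentSeries Kbar) c * J ^ (N + 1)).coeff n = 0 := by
        intro n hn
        rw [HahnSeries.coeff_sub, coeff_algebraMap_mul]
        by_cases hdvd : (M : ℤ) ∣ n
        · obtain ⟨k, rfl⟩ := hdvd
          have hk : k < -(N : ℤ) := by
            have h1 : (M : ℤ) * k < (M : ℤ) * (-(N : ℤ)) := by rw [mul_neg]; exact hn
            exact lt_of_mul_lt_mul_left h1 hM.le
          rcases lt_or_eq_of_le (show k ≤ -((N + 1 : ℕ) : ℤ) by push_cast; omega) with hlt | heq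
          · have h2 : (M : ℤ) * k < -((M : ℤ) * ((N + 1 : ℕ) : ℤ)) := by
              rw [← mul_neg]; exact mul_lt_mul_of_pos_left hlt hM
            rw [h0 _ h2, coeff_qExpand_jqModC_pow_of_lt M (N + 1) h2, mul_zero, sub_zero]
          · subst heq
            rw [mul_neg, coeff_qExpand_jqModC_pow M (N + 1), mul_one, ← hc, sub_self]
        · rw [coeff_eq_zero_of_T_smul ha hT hdvd, zero_sub, neg_eq_zero]
          have : (J ^ (N + 1)).coeff n = 0 := by
            rw [hJ, ← map_pow]
            exact ModularCurve.qExpand_coeff_of_not_dvd M _ hdvd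
          rw [this, mul_zero]
      obtain ⟨P, hP⟩ := ih _ hg_mem hg_inv _ hg_exp hcoeff
      refine ⟨P + Polynomial.C c * Polynomial.X ^ (N + 1), ?_⟩
      rw [map_add, map_mul, Polynomial.aeval_C, map_pow, Polynomial.aeval_X, hP]
      exact sub_add_cancel _ _

/-- **(A1-INV)** -/
theorem invariant : InvariantStatement := by
  intro M _ f a hf hinv ha
  obtain ⟨m, p, hap, hp⟩ := id ha
  refine inv_of_bound M m f hf hinv a ha ?_
  intro n hn
  rw [hap]
  refine coeff_eq_zero_of_lt_of_hasExp_aux m p (lt_of_lt_of_le hn ?_)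
  have hM : (1 : ℤ) ≤ M := by exact_mod_cast Nat.pos_of_ne_zero (NeZero.ne M)
  have hm : (0 : ℤ) ≤ m := Int.natCast_nonneg m
  nlinarith

end Fermat.Agent.S48WA1
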