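/-
S48 wall (W), HUB A1, seat SLASH (helper15): the transformation behaviour of the `X_v` and of the
Fricke functions under `SL₂(ℤ)`:

* `xSlash        : XSlashStatement`         `X_v(γτ) = (cτ + d)² X_{vγ}(τ)`,
* `xPeriod       : XPeriodStatement`        `X_v` depends only on `± v` modulo `M`,
* `frickeSmul    : FrickeSmulStatement`     `γ • F_v = F_{v γ⁻¹}`,
* `frickeOneSmul : FrickeOneSmulStatement`  `f_a ∘ γ = f_{α a}` for `γ ∈ Γ₀(M)`.

Everything follows from `weierstrassP_smul` (helper33, `S48/Eis1/Homog.lean`), the periodicity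
and the parity of `℘` (Mathlib), and the modularity of `E₄`, `E₆`, `Δ`.
-/
import Mathlib
import Fermat.Agent.S48.W.A1.Defs

set_option autoImplicit false

noncomputable section

namespace Fermat.Agent.S48WA1

open Fermat.Agent.S24 Fermat.Agent.S48.Eis1 Fermat.Agent.S48W UpperHalfPlane ModularCurve
open scoped MatrixGroups Real

/-! ### the division points -/

theorem slash_natCast_ne_zero (M : ℕ) [NeZero M] : (M : ℂ) ≠ 0 :=
  Nat.cast_ne_zero.mpr (NeZero.ne M)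

/-- `(cτ + d) · (r γτ + s)/M = ((r, s)γ · (τ, 1))/M`. -/
theorem slash_jFac_mul_divPt (M : ℕ) [NeZero M] (r s : ℤ) (γ : SL(2, ℤ)) (τ : ℍ) :
    jFac γ τ * divPt M r s (γ • τ) = divPt M (actL γ r s) (actR γ r s) τ := by
  have hj := jFac_ne_zero γ τ
  have hM := slash_natCast_ne_zero M
  have hs := jFac_mul_smul γ τ
  unfold divPt actL actR
  rw [← mul_div_assoc, mul_add, ← mul_assoc, mul_comm (jFac γ τ) (r : ℂ), mul_assoc, hs]
  congr 1
  push_cast
  unfold jFac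
  ring

theorem slash_divPt_add (M : ℕ) [NeZero M] (r s k l : ℤ) (τ : ℍ) :
    divPt M (r + M * k) (s + M * l) τ = divPt M r s τ + ((k : ℂ) * τ + l) := by
  have hM := slash_natCast_ne_zero M
  unfold divPt
  push_cast
  field_simp
  ring

theorem slash_divPt_neg (M : ℕ) (r s : ℤ) (τ : ℍ) :
    divPt M (-r) (-s) τ = -divPt M r s τ := by
  unfold divPt
  push_cast
  ring

/-! ### `X_v` -/

theorem xFun_apply (M : ℕ) (r s : ℤ) (τ : ℍ) :
    xFun M r s τ =
      12 * (latPair τ τ.im_pos).weierstrassP (divPt M r s τ) / (2 * π * Complex.I) ^ 2 := rfl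

/-- (A1b) **weight 2**. -/
theorem xSlash : XSlashStatement := by
  intro M _ r s γ τ
  rw [xFun_apply, xFun_apply, weierstrassP_smul γ τ, slash_jFac_mul_divPt]
  ring

/-- periodicity of `X_v` in `v` modulo `M` (no hypothesis on `v`). -/
theorem xFun_add (M : ℕ) [NeZero M] (r s k l : ℤ) :
    xFun M (r + M * k) (s + M * l) = xFun M r s := by
  ext τ
  have hl : ((k : ℂ) * τ + l) ∈ (latPair τ τ.im_pos).lattice :=
    (mem_latPair τ.im_pos _).2 ⟨k, l, rfl⟩
  rw [xFun_apply, xFun_apply, slash_divPt_add]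
  have := (latPair τ τ.im_pos).weierstrassP_add_coe (divPt M r s τ) ⟨_, hl⟩
  rw [this]

/-- parity of `X_v` (no hypothesis on `v`). -/
theorem xFun_neg (M : ℕ) (r s : ℤ) : xFun M (-r) (-s) = xFun M r s := by
  ext τ
  rw [xFun_apply, xFun_apply, slash_divPt_neg, PeriodPair.weierstrassP_neg]

/-- (A1b') `X_v` depends only on `± v` modulo `M`. -/
theorem xPeriod : XPeriodStatement := by
  intro M _ r s _
  exact ⟨fun k l => xFun_add M r s k l, xFun_neg M r s⟩

/-! ### `E₄ E₆ / Δ` has weight `-2` -/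

theorem eqFun_apply (τ : ℍ) :
    eqFun τ = ModularForm.E₄ τ * ModularForm.E₆ τ / ModularForm.discriminant τ := rfl

theorem eqFun_smul_apply (γ : SL(2, ℤ)) (τ : ℍ) :
    eqFun (γ • τ) * jFac γ τ ^ 2 = eqFun τ := by
  have h4 : ModularForm.E₄ (γ • τ) = denom γ τ ^ (4 : ℤ) * ModularForm.E₄ τ :=
    SlashInvariantForm.slash_action_eqn'' (Γ := 𝒮ℒ) ModularForm.E₄
      (γ := (γ : GL (Fin 2) ℝ)) (show (γ : GL (Fin 2) ℝ) ∈ 𝒮ℒ from ⟨γ, rfl⟩) τ
  have h6 : ModularForm.E₆ (γ • τ) = denom γ τ ^ (6 : ℤ) * ModularForm.E₆ τ :=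
    SlashInvariantForm.slash_action_eqn'' (Γ := 𝒮ℒ) ModularForm.E₆
      (γ := (γ : GL (Fin 2) ℝ)) (show (γ : GL (Fin 2) ℝ) ∈ 𝒮ℒ from ⟨γ, rfl⟩) τ
  have hΔ : CuspForm.discriminant (γ • τ) = denom γ τ ^ (12 : ℤ) * CuspForm.discriminant τ :=
    SlashInvariantForm.slash_action_eqn'' (Γ := 𝒮ℒ) CuspForm.discriminant
      (γ := (γ : GL (Fin 2) ℝ)) (show (γ : GL (Fin 2) ℝ) ∈ 𝒮ℒ from ⟨γ, rfl⟩) τ
  rw [CuspForm.coe_discriminant] at hΔ
  have hd : denom γ τ ≠ 0 := denom_ne_zero γ τ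
  have hΔ0 := ModularForm.discriminant_ne_zero τ
  rw [zpow_ofNat] at h4 h6 hΔ
  rw [eqFun_apply, eqFun_apply, h4, h6, hΔ, ← denom_eq_jFac]
  generalize denom γ τ = d at hd ⊢
  generalize ModularForm.E₄ τ = e4
  generalize ModularForm.E₆ τ = e6
  generalize ModularForm.discriminant τ = Δ at hΔ0 ⊢
  field_simp

/-! ### the Fricke functions -/

theorem frickeFun_apply (M : ℕ) (r s : ℤ) (τ : ℍ) :
    frickeFun M r s τ = eqFun τ * xFun M r s τ := rfl

/-- `F_v(γτ) = F_{vγ}(τ)`. -/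
theorem frickeFun_smul_apply (M : ℕ) [NeZero M] (r s : ℤ) (γ : SL(2, ℤ)) (τ : ℍ) :
    frickeFun M r s (γ • τ) = frickeFun M (actL γ r s) (actR γ r s) τ := by
  rw [frickeFun_apply, frickeFun_apply, xSlash M r s γ τ, ← mul_assoc, eqFun_smul_apply]

/-- (A1d-2) `SL₂(ℤ)` permutes the Fricke functions. -/
theorem frickeSmul : FrickeSmulStatement := by
  intro M _ r s γ
  ext τ
  rw [Fun.sl_smul_apply]
  exact frickeFun_smul_apply M r s γ⁻¹ τ

theorem frickeFun_add (M : ℕ) [NeZero M] (r s k l : ℤ) :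
    frickeFun M (r + M * k) (s + M * l) = frickeFun M r s := by
  unfold frickeFun
  rw [xFun_add]

/-! ### `f_a` on `Γ₀(M)` -/

/-- the conjugate `[α, Mβ; γ'/M, δ]` of `γ = [α β; γ' δ] ∈ Γ₀(M)` by `diag(M, 1)`. -/
def slashConj (M : ℕ) (γ : SL(2, ℤ)) (c' : ℤ) (hc : γ 1 0 = M * c') : SL(2, ℤ) :=
  ⟨!![γ 0 0, M * γ 0 1; c', γ 1 1], by
    have h := γ.det_coe
    rw [Matrix.det_fin_two] at h
    rw [Matrix.det_fin_two_of]
    rw [hc] at h
    linear_combination h⟩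

theorem slashConj_smul_scale (M : ℕ) [NeZero M] (γ : SL(2, ℤ)) (c' : ℤ) (hc : γ 1 0 = M * c')
    (τ : ℍ) : slashConj M γ c' hc • scale M τ = scale M (γ • τ) := by
  apply UpperHalfPlane.ext
  rw [coe_smul_eq, coe_scale, coe_scale, coe_smul_eq]
  have hj := jFac_ne_zero γ τ
  have hj' := jFac_ne_zero (slashConj M γ c' hc) (scale M τ)
  have e : jFac (slashConj M γ c' hc) (scale M τ) = jFac γ τ := by
    unfold jFac slashConj
    simp only [coe_scale]
    have : ((γ 1 0 : ℤ) : ℂ) = (M : ℂ) * c' := by rw [hc]; push_cast; rfl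
    rw [this]
    simp
    ring
  rw [e]
  field_simp
  unfold slashConj
  simp
  ring

/-- (A1c-2) `f_a ∘ γ = f_{α a}` for `γ = [α β; γ' δ] ∈ Γ₀(M)`. -/
theorem frickeOneSmul : FrickeOneSmulStatement := by
  intro M _ a γ hγ τ
  rw [CongruenceSubgroup.Gamma0_mem] at hγ
  obtain ⟨c', hc⟩ : (M : ℤ) ∣ γ 1 0 := (ZMod.intCast_zmod_eq_zero_iff_dvd _ M).mp hγ
  unfold frickeOne
  rw [← slashConj_smul_scale M γ c' hc τ, frickeFun_smul_apply]
  have h1 : actL (slashConj M γ c' hc) a 0 = a * γ 0 0 := by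
    unfold actL slashConj
    simp
  have h2 : actR (slashConj M γ c' hc) a 0 = 0 + M * (a * γ 0 1) := by
    unfold actR slashConj
    simp
    ring
  rw [h1, h2]
  have := frickeFun_add M (a * γ 0 0) 0 0 (a * γ 0 1)
  rw [mul_zero, add_zero] at this
  rw [this]

end Fermat.Agent.S48WA1
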