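/-
S48 wall (W), HUB A1, seat FORM (helper23): (A1c)
`x_a(τ) = X_{(a,0)}(Mτ) = 12 ℘(aτ; ℤ Mτ + ℤ)/(2πi)²` is a modular form of weight `2` on `Γ₁(M)`
with `q`-expansion `wpSeries M a`, and `x_a ∣[2] γ = x_{a γ₀₀}` for `γ ∈ Γ₀(M)`.

Everything is deduced from the statements `XExpStatement`, `XSlashStatement`, `XPeriodStatement`,
`XHolStatement` of `S48/W/A1/Defs.lean` (seats XEXP, SLASH, HOL).
-/
import Mathlib
import Fermat.Agent.S48.W.A1.Defs
import Fermat.Agent.S24.GensExp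
import Fermat.Agent.S24.Hol
import Fermat.Agent.S48.W.A1.Slash
import Fermat.Agent.S48.W.A1.Hol

set_option autoImplicit false

noncomputable section

namespace Fermat.Agent.S48WA1

open Fermat.Agent.S24 Fermat.Agent.S48.Eis1 Fermat.Agent.S48W UpperHalfPlane ModularCurve
open CongruenceSubgroup Fermat.Agent.S24.GensExp
open scoped MatrixGroups Real ModularForm Manifold

/-- `x_a(τ) = X_{(a,0)}(Mτ) = 12 ℘(aτ; ℤ Mτ + ℤ)/(2πi)²`. -/
def xOne (M : ℕ) [NeZero M] (a : ℤ) : Fun := fun τ => xFun M a 0 (scale M τ)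

/-- (A1c-form) `x_a` is a modular form of weight `2` on `Γ₁(M)` with `q`-expansion
`wpSeries M a`. -/
def XFormStatement : Prop :=
  ∀ (M : ℕ) [NeZero M] (a : ℤ), ¬ (M : ℤ) ∣ a →
    ∃ X : ModularForm (Gamma1 M) 2,
      (∀ τ : ℍ, X τ = xOne M a τ) ∧
      qExpansion 1 X = (wpSeries M (a : ZMod M)).map (Int.castRingHom ℂ)

/-- (A1c-slash) `x_a ∣[2] γ = x_{a γ₀₀}` for `γ ∈ Γ₀(M)`. -/
def XOneSlashStatement : Prop :=
  ∀ (M : ℕ) [NeZero M] (a : ℤ), ¬ (M : ℤ) ∣ a → ∀ γ : SL(2, ℤ), γ ∈ Gamma0 M →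
    (fun τ : ℍ => xOne M a τ) ∣[(2 : ℤ)] γ = fun τ : ℍ => xOne M (a * γ 0 0) τ

/-- (A1c), self-contained form: the family `X_a`, `a ∈ ℤ/M`, of modular forms of weight `2` on
`Γ₁(M)` with `q`-expansions `wpSeries M a`, permuted by `Γ₀(M)`. -/
def XFormFamilyStatement : Prop :=
  ∀ (M : ℕ) [NeZero M], ∃ X : ZMod M → ModularForm (Gamma1 M) 2,
    (∀ a : ZMod M, a ≠ 0 →
      qExpansion 1 (X a) = (wpSeries M a).map (Int.castRingHom ℂ)) ∧
    (∀ a : ZMod M, a ≠ 0 → ∀ γ : SL(2, ℤ), γ ∈ Gamma0 M →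
      (X a : ℍ → ℂ) ∣[(2 : ℤ)] γ = (X (a * ((γ 0 0 : ℤ) : ZMod M)) : ℍ → ℂ))

/-! ### auxiliary lemmas -/

/-- reduction of the first index modulo `M`. -/
theorem form_xFun_emod_of (hP : XPeriodStatement) (M : ℕ) [NeZero M] (r s : ℤ) (h : IsNZ M r s) :
    xFun M (r % M) s = xFun M r s := by
  have h1 := (hP M r s h).1 (-(r / M)) 0
  have e1 : r + (M : ℤ) * -(r / M) = r % M := by
    rw [Int.emod_def]; ring
  have e2 : s + (M : ℤ) * 0 = s := by ring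
  rwa [e1, e2] at h1

/-- congruent first indices give the same function (second index `0`). -/
theorem form_xFun_congr_of (hP : XPeriodStatement) (M : ℕ) [NeZero M] (r r' : ℤ)
    (h : ¬ (M : ℤ) ∣ r) (hrr : (M : ℤ) ∣ r' - r) : xFun M r' 0 = xFun M r 0 := by
  obtain ⟨k, hk⟩ := hrr
  have h1 := (hP M r 0 (fun hh => h hh.1)).1 k 0
  have e1 : r + (M : ℤ) * k = r' := by rw [← hk]; ring
  have e2 : (0 : ℤ) + (M : ℤ) * 0 = 0 := by ring
  rwa [e1, e2] at h1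

theorem form_isNZ_emod {M : ℕ} {r s : ℤ} (h : IsNZ M r s) : IsNZ M (r % M) s := by
  intro hh
  exact h ⟨(Int.dvd_of_emod_eq_zero (by
    have := Int.emod_emod_of_dvd r (dvd_refl (M : ℤ))
    rw [Int.emod_eq_zero_of_dvd hh.1] at this
    exact this.symm)), hh.2⟩

/-- `(r, s) γ` is nonzero modulo `M` if `(r, s)` is. -/
theorem form_isNZ_act {M : ℕ} {r s : ℤ} (γ : SL(2, ℤ)) (h : IsNZ M r s) :
    IsNZ M (actL γ r s) (actR γ r s) := by
  intro hh
  have hdet := sl2_det γ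
  refine h ⟨?_, ?_⟩
  · have : r = actL γ r s * γ 1 1 - actR γ r s * γ 1 0 := by
      simp only [actL, actR]
      linear_combination (-r) * hdet
    rw [this]
    exact dvd_sub (Dvd.dvd.mul_right hh.1 _) (Dvd.dvd.mul_right hh.2 _)
  · have : s = actR γ r s * γ 0 0 - actL γ r s * γ 0 1 := by
      simp only [actL, actR]
      linear_combination (-s) * hdet
    rw [this]
    exact dvd_sub (Dvd.dvd.mul_right hh.2 _) (Dvd.dvd.mul_right hh.1 _)

/-- a function with an expansion in nonnegative powers of `u` is bounded at `i∞`. -/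
theorem form_isBoundedAtImInfty_of_hasPExp {M : ℕ} [NeZero M] {f : Fun} {p : PowerSeries Kbar}
    (h : HasPExp M f p) : IsBoundedAtImInfty (fun τ : ℍ => f τ) := by
  have hM : (0 : ℝ) < M := Nat.cast_pos.mpr (Nat.pos_of_ne_zero (NeZero.ne M))
  refine isBoundedAtImInfty_of_hasSum_qExpansion (h := (M : ℝ))
    (c := fun n => iota (PowerSeries.coeff n p)) hM (fun τ => ?_)
  have := (h τ).2
  simpa [uParam, smul_eq_mul] using this

theorem form_im_aff (a e : ℕ) (b : ℤ) (ha : 0 < a) (he : 0 < e) (τ : ℍ) :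
    (aff a e b ha he τ).im = (a : ℝ) * τ.im / (e : ℝ) := by
  show (((a : ℂ) * (τ : ℂ) + (b : ℂ)) / (e : ℂ)).im = _
  rw [Complex.div_natCast_im]
  simp

theorem form_isBoundedAtImInfty_comp_aff {f : ℍ → ℂ} (hf : IsBoundedAtImInfty f)
    (a e : ℕ) (b : ℤ) (ha : 0 < a) (he : 0 < e) :
    IsBoundedAtImInfty (fun τ : ℍ => f (aff a e b ha he τ)) := by
  rw [isBoundedAtImInfty_iff] at hf ⊢
  obtain ⟨C, A, hCA⟩ := hf
  have ha' : (0 : ℝ) < a := Nat.cast_pos.mpr ha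
  have he' : (0 : ℝ) < e := Nat.cast_pos.mpr he
  refine ⟨C, A * e / a, fun z hz => hCA _ ?_⟩
  rw [form_im_aff, le_div_iff₀ he']
  rw [div_le_iff₀ ha'] at hz
  linarith

/-- the automorphy factors in the Hermite decomposition: `|j(γ', (aτ+b)/e)| e = |j(γ, τ)|`. -/
theorem form_norm_jFac_hermite {M : ℕ} [NeZero M] (γ γ' : SL(2, ℤ)) (a e : ℕ) (b : ℤ)
    (ha : 0 < a) (he : 0 < e) (hae : a * e = M) (τ : ℍ)
    (h : scale M (γ • τ) = γ' • aff a e b ha he τ) :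
    ‖jFac γ' (aff a e b ha he τ)‖ * (e : ℝ) = ‖jFac γ τ‖ := by
  have ha' : (0 : ℝ) < a := Nat.cast_pos.mpr ha
  have he' : (0 : ℝ) < e := Nat.cast_pos.mpr he
  have hτ := τ.im_pos
  have h1 : (scale M (γ • τ)).im = (M : ℝ) * (γ • τ).im := by
    show ((M : ℂ) * ((γ • τ : ℍ) : ℂ)).im = _
    simp
  have h2 := congrArg UpperHalfPlane.im h
  rw [h1, ModularGroup.im_smul_eq_div_normSq, ModularGroup.im_smul_eq_div_normSq, form_im_aff,
    denom_eq_jFac, denom_eq_jFac, Complex.normSq_eq_norm_sq, Complex.normSq_eq_norm_sq] at h2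
  have hj : 0 < ‖jFac γ τ‖ := norm_pos_iff.mpr (jFac_ne_zero γ τ)
  have hj' : 0 < ‖jFac γ' (aff a e b ha he τ)‖ := norm_pos_iff.mpr (jFac_ne_zero γ' _)
  have hM : (M : ℝ) = a * e := by rw [← hae]; push_cast; ring
  rw [hM] at h2
  have h3 : (‖jFac γ' (aff a e b ha he τ)‖ * (e : ℝ)) ^ 2 = ‖jFac γ τ‖ ^ 2 := by
    field_simp at h2
    rw [mul_pow]
    linarith
  exact (sq_eq_sq₀ (mul_nonneg hj'.le he'.le) hj.le).mp h3

/-! ### the action of `Γ₀(M)` -/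

/-- for `γ = [α β; c δ] ∈ Γ₀(M)`: the matrix `γ' = [α, Mβ; c/M, δ]` with `M (γ τ) = γ' (M τ)`. -/
theorem form_exists_conj_Gamma0 (M : ℕ) [NeZero M] (γ : SL(2, ℤ)) (hγ : γ ∈ Gamma0 M) :
    ∃ γ' : SL(2, ℤ), γ' 0 0 = γ 0 0 ∧ γ' 0 1 = (M : ℤ) * γ 0 1 ∧ (M : ℤ) * γ' 1 0 = γ 1 0 ∧
      γ' 1 1 = γ 1 1 ∧
      ∀ τ : ℍ, scale M (γ • τ) = γ' • scale M τ ∧ jFac γ' (scale M τ) = jFac γ τ := by
  have hdvd : (M : ℤ) ∣ γ 1 0 := by
    rw [Gamma0_mem] at hγ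
    exact (ZMod.intCast_zmod_eq_zero_iff_dvd _ _).mp hγ
  obtain ⟨c', hc'⟩ := hdvd
  have hdet := sl2_det γ
  have hMC : (M : ℂ) ≠ 0 := Nat.cast_ne_zero.mpr (NeZero.ne M)
  have hdet' : (!![γ 0 0, (M : ℤ) * γ 0 1; c', γ 1 1] : Matrix (Fin 2) (Fin 2) ℤ).det = 1 := by
    rw [Matrix.det_fin_two_of]
    rw [hc'] at hdet
    linear_combination hdet
  obtain ⟨γ', h00, h01, h10, h11⟩ : ∃ γ' : SL(2, ℤ), γ' 0 0 = γ 0 0 ∧
      γ' 0 1 = (M : ℤ) * γ 0 1 ∧ γ' 1 0 = c' ∧ γ' 1 1 = γ 1 1 :=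
    ⟨⟨!![γ 0 0, (M : ℤ) * γ 0 1; c', γ 1 1], hdet'⟩, rfl, rfl, rfl, rfl⟩
  refine ⟨γ', h00, h01, by rw [h10, hc'], h11, fun τ => ?_⟩
  have hj : jFac γ' (scale M τ) = jFac γ τ := by
    simp only [jFac, coe_scale, h10, h11, hc']
    push_cast
    ring
  refine ⟨?_, hj⟩
  apply UpperHalfPlane.ext
  rw [coe_scale, coe_smul_eq, coe_smul_eq, hj, coe_scale, h00, h01]
  push_cast
  ring

/-- `x_a(γ τ) = j(γ, τ)² x_{a α}(τ)` for `γ = [α β; c δ] ∈ Γ₀(M)`. -/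
theorem xOne_smul_of (hS : XSlashStatement) (hP : XPeriodStatement) (M : ℕ) [NeZero M] (a : ℤ)
    (ha : ¬ (M : ℤ) ∣ a) (γ : SL(2, ℤ)) (hγ : γ ∈ Gamma0 M) (τ : ℍ) :
    xOne M a (γ • τ) = jFac γ τ ^ 2 * xOne M (a * γ 0 0) τ := by
  obtain ⟨γ', h00, h01, h10, h11, hτ⟩ := form_exists_conj_Gamma0 M γ hγ
  have hNZ : IsNZ M (a * γ 0 0) 0 := by
    have := form_isNZ_act (M := M) (r := a) (s := 0) γ' (fun hh => ha hh.1)
    intro hh
    refine this ⟨?_, ?_⟩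
    · simp only [actL, h00]
      simpa using hh.1
    · simp only [actR, h01]
      exact ⟨a * γ 0 1, by ring⟩
  show xFun M a 0 (scale M (γ • τ)) = jFac γ τ ^ 2 * xFun M (a * γ 0 0) 0 (scale M τ)
  rw [(hτ τ).1, hS M a 0 γ' (scale M τ), (hτ τ).2]
  have e1 : actL γ' a 0 = a * γ 0 0 := by simp [actL, h00]
  have e2 : actR γ' a 0 = 0 + (M : ℤ) * (a * γ 0 1) := by simp only [actR, h01]; ring
  have e3 : a * γ 0 0 = a * γ 0 0 + (M : ℤ) * 0 := by ring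
  rw [e1, e2]
  conv_lhs => rw [e3]
  rw [(hP M (a * γ 0 0) 0 hNZ).1 0 (a * γ 0 1)]

/-- (A1c-slash). -/
theorem xOneSlash_of (hS : XSlashStatement) (hP : XPeriodStatement) : XOneSlashStatement := by
  intro M _ a ha γ hγ
  funext τ
  rw [ModularForm.SL_slash_apply, xOne_smul_of hS hP M a ha γ hγ τ, denom_eq_jFac]
  have hj := jFac_ne_zero γ τ
  rw [zpow_neg, mul_comm, ← mul_assoc]
  have : ((jFac γ τ) ^ (2 : ℤ))⁻¹ * jFac γ τ ^ 2 = 1 := by
    rw [zpow_ofNat]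
    exact inv_mul_cancel₀ (pow_ne_zero 2 hj)
  rw [this, one_mul]

/-! ### boundedness at the cusps -/

theorem form_exists_iota_eq_exp (M : ℕ) [NeZero M] :
    ∃ ζ : Kbar, iota ζ = Complex.exp (2 * π * Complex.I / M) := by
  have hM : 0 < M := Nat.pos_of_ne_zero (NeZero.ne M)
  have hMC : (M : ℂ) ≠ 0 := Nat.cast_ne_zero.mpr (NeZero.ne M)
  refine exists_iota_eq_of_pow_eq_one hM ?_
  rw [← Complex.exp_nat_mul, mul_div_cancel₀ _ hMC, Complex.exp_two_pi_mul_I]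

/-- every `X_v` is bounded at `i∞`. -/
theorem form_isBoundedAtImInfty_xFun_of (hE : XExpStatement) (hP : XPeriodStatement) (M : ℕ)
    [NeZero M] (r s : ℤ) (hNZ : IsNZ M r s) : IsBoundedAtImInfty (fun τ : ℍ => xFun M r s τ) := by
  have hM : 0 < M := Nat.pos_of_ne_zero (NeZero.ne M)
  obtain ⟨ζ, hζ⟩ := form_exists_iota_eq_exp M
  have hexp := hE M ζ hζ (r % M) s (Int.emod_nonneg _ (by exact_mod_cast hM.ne'))
    (Int.emod_lt_of_pos _ (by exact_mod_cast hM)) (form_isNZ_emod hNZ)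
  have hb := form_isBoundedAtImInfty_of_hasPExp hexp
  rwa [form_xFun_emod_of hP M r s hNZ] at hb

/-- `x_a ∣[2] γ` is bounded at `i∞` for every `γ ∈ SL₂(ℤ)`. -/
theorem form_isBoundedAtImInfty_xOne_slash_of (hE : XExpStatement) (hS : XSlashStatement)
    (hP : XPeriodStatement) (M : ℕ) [NeZero M] (a : ℤ) (ha : ¬ (M : ℤ) ∣ a) (γ : SL(2, ℤ)) :
    IsBoundedAtImInfty ((fun τ : ℍ => xOne M a τ) ∣[(2 : ℤ)] γ) := by
  obtain ⟨γ', a', e, b, ha', he, hae, hτ⟩ := exists_hermite M γ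
  have hNZ : IsNZ M (actL γ' a 0) (actR γ' a 0) := form_isNZ_act γ' (fun hh => ha hh.1)
  have hb2 := form_isBoundedAtImInfty_comp_aff
    (form_isBoundedAtImInfty_xFun_of hE hP M _ _ hNZ) a' e b ha' he
  rw [isBoundedAtImInfty_iff] at hb2 ⊢
  obtain ⟨C, A, hCA⟩ := hb2
  refine ⟨C, A, fun z hz => ?_⟩
  rw [ModularForm.SL_slash_apply, denom_eq_jFac]
  show ‖xFun M a 0 (scale M (γ • z)) * jFac γ z ^ (-(2 : ℤ))‖ ≤ C
  rw [hτ z, hS M a 0 γ' (aff a' e b ha' he z), norm_mul, norm_mul, norm_pow, norm_zpow,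
    ← form_norm_jFac_hermite γ γ' a' e b ha' he hae z (hτ z)]
  have hX := hCA z hz
  have hX0 : 0 ≤ ‖xFun M (actL γ' a 0) (actR γ' a 0) (aff a' e b ha' he z)‖ := norm_nonneg _
  have hj' : 0 < ‖jFac γ' (aff a' e b ha' he z)‖ := norm_pos_iff.mpr (jFac_ne_zero γ' _)
  have he1 : (1 : ℝ) ≤ e := by exact_mod_cast he
  have he' : (0 : ℝ) < e := by linarith
  have key : ‖jFac γ' (aff a' e b ha' he z)‖ ^ 2 *
      ‖xFun M (actL γ' a 0) (actR γ' a 0) (aff a' e b ha' he z)‖ *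
      (‖jFac γ' (aff a' e b ha' he z)‖ * (e : ℝ)) ^ (-(2 : ℤ))
      = ‖xFun M (actL γ' a 0) (actR γ' a 0) (aff a' e b ha' he z)‖ / (e : ℝ) ^ 2 := by
    rw [zpow_neg, zpow_ofNat]
    field_simp
  rw [key]
  refine le_trans ?_ hX
  rw [div_le_iff₀ (by positivity)]
  have : (1 : ℝ) ≤ (e : ℝ) ^ 2 := by nlinarith
  nlinarith

/-! ### the `q`-expansion -/

theorem form_uParam_scale_self (M : ℕ) [NeZero M] (τ : ℍ) :
    uParam M (scale M τ) = Function.Periodic.qParam 1 (τ : ℂ) := by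
  have hMC : (M : ℂ) ≠ 0 := Nat.cast_ne_zero.mpr (NeZero.ne M)
  simp only [uParam, Function.Periodic.qParam, coe_scale]
  congr 1
  push_cast
  field_simp

theorem form_iota_xCoeff_zero (M : ℕ) [NeZero M] (ζ : Kbar) (r : ℤ) (hr : ¬ (M : ℤ) ∣ r) (n : ℕ) :
    iota (xCoeff M ζ r 0 n) = ((wpCoeff M (r : ZMod M) n : ℤ) : ℂ) := by
  simp only [xCoeff, wpCoeff, if_neg hr, zero_mul, neg_zero, zpow_zero, mul_one, add_zero]
  simp only [map_add, map_sub, map_mul, map_sum, apply_ite iota, map_one, map_zero, map_natCast,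
    map_ofNat]
  push_cast
  rfl

/-- `x_a(τ) = Σ_n wpCoeff_n qⁿ`. -/
theorem hasSum_xOne_of (hE : XExpStatement) (hP : XPeriodStatement) (M : ℕ) [NeZero M] (a : ℤ)
    (ha : ¬ (M : ℤ) ∣ a) (τ : ℍ) :
    HasSum (fun n : ℕ => (((wpCoeff M (a : ZMod M) n : ℤ) : ℂ)) •
      Function.Periodic.qParam 1 (τ : ℂ) ^ n) (xOne M a τ) := by
  have hM : 0 < M := Nat.pos_of_ne_zero (NeZero.ne M)
  obtain ⟨ζ, hζ⟩ := form_exists_iota_eq_exp M
  have hNZ : IsNZ M a 0 := fun hh => ha hh.1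
  have hexp := hE M ζ hζ (a % M) 0 (Int.emod_nonneg _ (by exact_mod_cast hM.ne'))
    (Int.emod_lt_of_pos _ (by exact_mod_cast hM)) (form_isNZ_emod hNZ)
  rw [form_xFun_emod_of hP M a 0 hNZ] at hexp
  have h1 := (hexp (scale M τ)).2
  have hr : ¬ (M : ℤ) ∣ a % M := fun hh => form_isNZ_emod hNZ ⟨hh, dvd_zero _⟩
  have hcast : ((a % (M : ℤ) : ℤ) : ZMod M) = (a : ZMod M) := ZMod.intCast_mod a M
  simp only [PowerSeries.coeff_mk, form_iota_xCoeff_zero M ζ (a % M) hr, hcast,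
    form_uParam_scale_self] at h1
  show HasSum _ (xFun M a 0 (scale M τ))
  simpa [smul_eq_mul] using h1

/-! ### the modular forms -/

theorem form_one_mem_strictPeriods_Gamma1 (M : ℕ) :
    (1 : ℝ) ∈ (Gamma1 M : Subgroup (GL (Fin 2) ℝ)).strictPeriods := by
  simp [CongruenceSubgroup.strictPeriods_Gamma1]

theorem form_Gamma1_le_Gamma0_aux (M : ℕ) {γ : SL(2, ℤ)} (hγ : γ ∈ Gamma1 M) : γ ∈ Gamma0 M := by
  rw [Gamma1_mem] at hγ
  rw [Gamma0_mem]
  exact hγ.2.2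

/-- `x_{a α} = x_a` for `α ≡ 1` modulo `M`. -/
theorem xOne_congr_of (hP : XPeriodStatement) (M : ℕ) [NeZero M] (a a' : ℤ)
    (ha : ¬ (M : ℤ) ∣ a) (h : (M : ℤ) ∣ a' - a) : xOne M a' = xOne M a := by
  funext τ
  show xFun M a' 0 (scale M τ) = xFun M a 0 (scale M τ)
  rw [form_xFun_congr_of hP M a a' ha h]

/-- (A1c-form). -/
theorem xForm_of (hE : XExpStatement) (hS : XSlashStatement) (hP : XPeriodStatement)
    (hH : XHolStatement) : XFormStatement := by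
  intro M _ a ha
  have hNZ : IsNZ M a 0 := fun hh => ha hh.1
  let X : ModularForm (Gamma1 M) 2 :=
    { toFun := fun τ => xOne M a τ
      slash_action_eq' := by
        intro g hg
        obtain ⟨γ, hγ, rfl⟩ := Subgroup.mem_map.mp hg
        have h0 : γ ∈ Gamma0 M := form_Gamma1_le_Gamma0_aux M hγ
        have h1 := xOneSlash_of hS hP M a ha γ h0
        rw [ModularForm.SL_slash] at h1
        have h2 : (M : ℤ) ∣ a * γ 0 0 - a := by
          rw [Gamma1_mem] at hγ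
          have h3 : (((γ 0 0 - 1 : ℤ)) : ZMod M) = 0 := by
            push_cast
            rw [hγ.1, sub_self]
          have h4 := (ZMod.intCast_zmod_eq_zero_iff_dvd _ _).mp h3
          have : a * γ 0 0 - a = (γ 0 0 - 1) * a := by ring
          rw [this]
          exact Dvd.dvd.mul_right h4 a
        have h5 := xOne_congr_of hP M a (a * γ 0 0) ha h2
        exact h1.trans (funext fun τ => congrFun h5 τ)
      holo' := by
        have h1 : MDifferentiable 𝓘(ℂ) 𝓘(ℂ) ((xFun M a 0 : ℍ → ℂ) ∘ scale M) :=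
          MDifferentiable.comp (hH M a 0 hNZ) (mdifferentiable_scale M)
        exact h1
      bdd_at_cusps' := by
        intro c hc
        rw [Subgroup.IsArithmetic.isCusp_iff_isCusp_SL2Z] at hc
        rw [OnePoint.isBoundedAt_iff_forall_SL2Z hc]
        intro γ _
        exact form_isBoundedAtImInfty_xOne_slash_of hE hS hP M a ha γ }
  refine ⟨X, fun τ => rfl, ?_⟩
  ext n
  rw [PowerSeries.coeff_map]
  have h := ModularFormClass.qExpansion_coeff_unique (f := X) one_pos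
    (form_one_mem_strictPeriods_Gamma1 M) (c := fun n => ((wpCoeff M (a : ZMod M) n : ℤ) : ℂ))
    (fun τ => hasSum_xOne_of hE hP M a ha τ) n
  rw [← h]
  simp [wpSeries]

theorem form_not_dvd_of_cast_ne_zero {M : ℕ} {r : ℤ} (h : ((r : ℤ) : ZMod M) ≠ 0) : ¬ (M : ℤ) ∣ r :=
  fun hh => h ((ZMod.intCast_zmod_eq_zero_iff_dvd r M).mpr hh)

theorem form_cast_val_eq (M : ℕ) [NeZero M] (a : ZMod M) : (((a.val : ℕ) : ℤ) : ZMod M) = a := by
  rw [Int.cast_natCast, ZMod.natCast_zmod_val]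

/-- the upper left entry of an element of `Γ₀(M)` is a unit modulo `M`. -/
theorem form_mul_cast_ne_zero_of_Gamma0 {M : ℕ} [NeZero M] {γ : SL(2, ℤ)} (hγ : γ ∈ Gamma0 M)
    {a : ZMod M} (ha : a ≠ 0) : a * ((γ 0 0 : ℤ) : ZMod M) ≠ 0 := by
  intro h
  apply ha
  rw [Gamma0_mem] at hγ
  have hdet := congrArg (fun x : ℤ => (x : ZMod M)) (sl2_det γ)
  simp only [Int.cast_sub, Int.cast_mul, Int.cast_one] at hdet
  rw [hγ, mul_zero, sub_zero] at hdet
  calc a = a * (((γ 0 0 : ℤ) : ZMod M) * ((γ 1 1 : ℤ) : ZMod M)) := by rw [hdet, mul_one]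
    _ = (a * ((γ 0 0 : ℤ) : ZMod M)) * ((γ 1 1 : ℤ) : ZMod M) := by ring
    _ = 0 := by rw [h, zero_mul]

/-- (A1c), self-contained form. -/
theorem xFormFamily_of (hE : XExpStatement) (hS : XSlashStatement) (hP : XPeriodStatement)
    (hH : XHolStatement) : XFormFamilyStatement := by
  intro M _
  classical
  have hF := xForm_of hE hS hP hH M
  have hval : ∀ a : ZMod M, a ≠ 0 → ¬ (M : ℤ) ∣ ((a.val : ℕ) : ℤ) := fun a ha =>
    form_not_dvd_of_cast_ne_zero (by rw [form_cast_val_eq]; exact ha)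
  have hex : ∀ a : ZMod M, ∃ X : ModularForm (Gamma1 M) 2, a ≠ 0 →
      (∀ τ : ℍ, X τ = xOne M ((a.val : ℕ) : ℤ) τ) ∧
        qExpansion 1 X = (wpSeries M a).map (Int.castRingHom ℂ) := by
    intro a
    by_cases ha : a = 0
    · exact ⟨0, fun h => absurd ha h⟩
    · obtain ⟨X, h1, h2⟩ := hF ((a.val : ℕ) : ℤ) (hval a ha)
      rw [form_cast_val_eq] at h2
      exact ⟨X, fun _ => ⟨h1, h2⟩⟩
  choose X hX using hex
  refine ⟨X, fun a ha => (hX a ha).2, fun a ha γ hγ => ?_⟩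
  have ha' := form_mul_cast_ne_zero_of_Gamma0 hγ ha
  have h1 : (X a : ℍ → ℂ) = fun τ : ℍ => xOne M ((a.val : ℕ) : ℤ) τ :=
    funext fun τ => (hX a ha).1 τ
  have h2 : (X (a * ((γ 0 0 : ℤ) : ZMod M)) : ℍ → ℂ)
      = fun τ : ℍ => xOne M (((a * ((γ 0 0 : ℤ) : ZMod M)).val : ℕ) : ℤ) τ :=
    funext fun τ => (hX _ ha').1 τ
  rw [h1, h2, xOneSlash_of hS hP M _ (hval a ha) γ hγ]
  have hnd : ¬ (M : ℤ) ∣ ((a.val : ℕ) : ℤ) * γ 0 0 := by
    apply form_not_dvd_of_cast_ne_zero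
    rw [Int.cast_mul, form_cast_val_eq]
    exact ha'
  have hd : (M : ℤ) ∣ (((a * ((γ 0 0 : ℤ) : ZMod M)).val : ℕ) : ℤ) - ((a.val : ℕ) : ℤ) * γ 0 0 := by
    rw [← ZMod.intCast_zmod_eq_zero_iff_dvd, Int.cast_sub, Int.cast_mul, form_cast_val_eq, form_cast_val_eq,
      sub_self]
  have h3 := xOne_congr_of hP M _ _ hnd hd
  funext τ
  exact (congrFun h3 τ).symm

/-! ### wiring: everything from the single input `XExpStatement` (seat XEXP) -/

/-- (A1c-slash), unconditional. -/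
theorem xOneSlash : XOneSlashStatement := xOneSlash_of xSlash xPeriod

/-- (A1c-form) from `XExpStatement`. -/
theorem a1_xForm_of (hX : XExpStatement) : XFormStatement :=
  xForm_of hX xSlash xPeriod (xHol_of hX xPeriod)

/-- (A1c), self-contained form, from `XExpStatement`. -/
theorem a1_xFormFamily_of (hX : XExpStatement) : XFormFamilyStatement :=
  xFormFamily_of hX xSlash xPeriod (xHol_of hX xPeriod)

end Fermat.Agent.S48WA1
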