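/-
S48 wall (W), HUB A1, seat FORM (helper23): the unconditional statements (A1c).

* `xForm : XFormStatement`: `x_a(τ) = X_{(a,0)}(Mτ)` is a modular form of weight `2` on `Γ₁(M)`
  with `q`-expansion `wpSeries M a`;
* `xFormFamily : XFormFamilyStatement`: the family `X_a`, `a ∈ ℤ/M`, permuted by `Γ₀(M)`;
* `xOneSlash : XOneSlashStatement` is in `Form.lean`.
-/
import Mathlib
import Fermat.Agent.S48.W.A1.Form
import Fermat.Agent.S48.W.A1.XExp

set_option autoImplicit false

namespace Fermat.Agent.S48WA1

/-- (A1c-form). -/
theorem xForm : XFormStatement := a1_xForm_of xExp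

/-- (A1c), self-contained form. -/
theorem xFormFamily : XFormFamilyStatement := a1_xFormFamily_of xExp

end Fermat.Agent.S48WA1
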