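/-
S48 wall (W), HUB A1, seat ALG (helper70): the Fricke functions are integral over `ℚ̄[j(q^M)]`.

* `frickeIntegral_of` : from holomorphy, the `SL₂(ℤ)`-action and the expansions of the `F_v`, the
  polynomial `Π_v (T - F_v)` (`v ∈ (ℤ/M)² ∖ 0`) has coefficients in `ℚ̄[j]` (seat INV), and the
  equation is transported to the formal expansions: `FrickeIntegralStatement`;
* `frickeAlgebraicOne_of` : descent `ℚ̄ → ℚ`: `S48W.FrickeAlgebraicOne M`;
* `frickeAlgebraicBarOne_of_integral` : the `ℚ̄`-form `S48W.FrickeAlgebraicBarOne M`.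
-/
import Mathlib
import Fermat.Agent.S48.W.A1.Inv
import Fermat.Agent.S48.W.H.DefsBar

set_option autoImplicit false

noncomputable section

namespace Fermat.Agent.S48WA1

open Fermat.Agent.S24 Fermat.Agent.S24Inv Fermat.Agent.S48W UpperHalfPlane ModularCurve Polynomial
open scoped MatrixGroups

/-! ### the action of `SL₂(ℤ)` on `(ℤ/M)² ∖ 0` -/

/-- `v ↦ v · γ` on row vectors modulo `M`. -/
def actZ (M : ℕ) (γ : SL(2, ℤ)) (v : ZMod M × ZMod M) : ZMod M × ZMod M :=
  (v.1 * ((γ 0 0 : ℤ) : ZMod M) + v.2 * ((γ 1 0 : ℤ) : ZMod M),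
    v.1 * ((γ 0 1 : ℤ) : ZMod M) + v.2 * ((γ 1 1 : ℤ) : ZMod M))

theorem actZ_one (M : ℕ) (v : ZMod M × ZMod M) : actZ M 1 v = v := by
  ext <;> simp [actZ]

theorem actZ_mul (M : ℕ) (γ γ' : SL(2, ℤ)) (v : ZMod M × ZMod M) :
    actZ M (γ * γ') v = actZ M γ' (actZ M γ v) := by
  ext
  · simp only [actZ, Matrix.SpecialLinearGroup.coe_mul, Matrix.mul_apply, Fin.sum_univ_two]
    push_cast
    ring
  · simp only [actZ, Matrix.SpecialLinearGroup.coe_mul, Matrix.mul_apply, Fin.sum_univ_two]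
    push_cast
    ring

theorem actZ_zero (M : ℕ) (γ : SL(2, ℤ)) : actZ M γ 0 = 0 := by
  ext <;> simp [actZ]

/-- `v ↦ v · γ` as a permutation. -/
def actEquiv (M : ℕ) (γ : SL(2, ℤ)) : ZMod M × ZMod M ≃ ZMod M × ZMod M where
  toFun := actZ M γ
  invFun := actZ M γ⁻¹
  left_inv v := by rw [← actZ_mul, mul_inv_cancel, actZ_one]
  right_inv v := by rw [← actZ_mul, inv_mul_cancel, actZ_one]

/-- the index set `(ℤ/M)² ∖ 0`. -/
abbrev VIdx (M : ℕ) : Type := {v : ZMod M × ZMod M // v ≠ 0}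

/-- `v ↦ v · γ` as a permutation of `(ℤ/M)² ∖ 0`. -/
def actIdx (M : ℕ) (γ : SL(2, ℤ)) : VIdx M ≃ VIdx M :=
  (actEquiv M γ).subtypeEquiv fun _ =>
    ((actEquiv M γ).injective.ne_iff' (actZ_zero M γ)).symm

theorem actIdx_coe (M : ℕ) (γ : SL(2, ℤ)) (v : VIdx M) :
    ((actIdx M γ v : VIdx M) : ZMod M × ZMod M) = actZ M γ v := rfl

/-! ### the Fricke functions indexed by `(ℤ/M)² ∖ 0` -/

/-- `F_v`, `v ∈ (ℤ/M)² ∖ 0` (standard representatives). -/
def frickeIdx (M : ℕ) (v : VIdx M) : Fun :=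
  frickeFun M ((v.1.1.val : ℕ) : ℤ) ((v.1.2.val : ℕ) : ℤ)

theorem isNZ_iff_cast (M : ℕ) (r s : ℤ) :
    IsNZ M r s ↔ (((r : ℤ) : ZMod M), ((s : ℤ) : ZMod M)) ≠ 0 := by
  rw [IsNZ, Ne, Prod.mk_eq_zero, ZMod.intCast_zmod_eq_zero_iff_dvd,
    ZMod.intCast_zmod_eq_zero_iff_dvd]

theorem cast_val_a1 (M : ℕ) [NeZero M] (x : ZMod M) : (((x.val : ℕ) : ℤ) : ZMod M) = x := by
  rw [Int.cast_natCast, ZMod.natCast_zmod_val]

theorem isNZ_val (M : ℕ) [NeZero M] (v : VIdx M) :
    IsNZ M ((v.1.1.val : ℕ) : ℤ) ((v.1.2.val : ℕ) : ℤ) := by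
  rw [isNZ_iff_cast, cast_val_a1, cast_val_a1]
  exact v.2

theorem frickeFun_congr_a1 (hP : XPeriodStatement) (M : ℕ) [NeZero M] {r s r' s' : ℤ}
    (h : IsNZ M r s) (hr : ((r : ℤ) : ZMod M) = ((r' : ℤ) : ZMod M))
    (hs : ((s : ℤ) : ZMod M) = ((s' : ℤ) : ZMod M)) :
    frickeFun M r s = frickeFun M r' s' := by
  obtain ⟨k, hk⟩ := (ZMod.intCast_eq_intCast_iff_dvd_sub r r' M).mp hr
  obtain ⟨l, hl⟩ := (ZMod.intCast_eq_intCast_iff_dvd_sub s s' M).mp hs
  have e1 : r' = r + M * k := by linarith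
  have e2 : s' = s + M * l := by linarith
  rw [frickeFun, frickeFun, e1, e2, (hP M r s h).1 k l]

theorem frickeIdx_smul (hP : XPeriodStatement) (hS : FrickeSmulStatement) (M : ℕ) [NeZero M]
    (γ : SL(2, ℤ)) (v : VIdx M) :
    γ • frickeIdx M v = frickeIdx M (actIdx M γ⁻¹ v) := by
  rw [frickeIdx, hS M _ _ γ, frickeIdx]
  have hr : (((actL γ⁻¹ ((v.1.1.val : ℕ) : ℤ) ((v.1.2.val : ℕ) : ℤ) : ℤ)) : ZMod M)
      = (actZ M γ⁻¹ v.1).1 := by
    simp only [actL, actZ]
    push_cast
    rw [ZMod.natCast_zmod_val, ZMod.natCast_zmod_val]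
  have hs : (((actR γ⁻¹ ((v.1.1.val : ℕ) : ℤ) ((v.1.2.val : ℕ) : ℤ) : ℤ)) : ZMod M)
      = (actZ M γ⁻¹ v.1).2 := by
    simp only [actR, actZ]
    push_cast
    rw [ZMod.natCast_zmod_val, ZMod.natCast_zmod_val]
  refine frickeFun_congr_a1 hP M ?_ ?_ ?_
  · rw [isNZ_iff_cast, hr, hs]
    exact (actIdx M γ⁻¹ v).2
  · rw [hr, cast_val_a1, actIdx_coe]
  · rw [hs, cast_val_a1, actIdx_coe]

/-! ### holomorphic functions with an expansion -/

/-- the algebra of holomorphic functions with an expansion at `∞`. -/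
def goodSub (M : ℕ) [NeZero M] : Subalgebra Kbar Fun where
  carrier := {f | IsHol f ∧ ∃ a : LaurentSeries Kbar, HasExp M f a}
  mul_mem' := by
    rintro f g ⟨hf, a, ha⟩ ⟨hg, b, hb⟩
    exact ⟨hf.mul hg, _, ha.mul hb⟩
  add_mem' := by
    rintro f g ⟨hf, a, ha⟩ ⟨hg, b, hb⟩
    exact ⟨hf.add hg, _, ha.add hb⟩
  algebraMap_mem' c := ⟨isHol_algebraMap c, _, HasExp.algebraMap M c⟩

theorem hasExp_aeval_a1 {M : ℕ} [NeZero M] {f : Fun} {a : LaurentSeries Kbar}
    (h : HasExp M f a) (P : Polynomial Kbar) :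
    HasExp M (Polynomial.aeval f P) (Polynomial.aeval a P) := by
  induction P using Polynomial.induction_on' with
  | add p q hp hq =>
      rw [map_add, map_add]
      exact hp.add hq
  | monomial n c =>
      rw [Polynomial.aeval_monomial, Polynomial.aeval_monomial]
      exact (HasExp.algebraMap M c).mul (hasExp_pow h n)

theorem hasExp_eval₂_a1 {M : ℕ} [NeZero M] {f x : Fun} {a b : LaurentSeries Kbar}
    (hf : HasExp M f a) (hx : HasExp M x b) (P : Polynomial (Polynomial Kbar)) :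
    HasExp M (Polynomial.eval₂ (Polynomial.aeval f).toRingHom x P)
      (Polynomial.eval₂ (Polynomial.aeval a).toRingHom b P) := by
  induction P using Polynomial.induction_on' with
  | add p q hp hq =>
      rw [Polynomial.eval₂_add, Polynomial.eval₂_add]
      exact hp.add hq
  | monomial n c =>
      rw [Polynomial.eval₂_monomial, Polynomial.eval₂_monomial]
      exact (hasExp_aeval_a1 hf c).mul (hasExp_pow hx n)

theorem hasExp_zero_a1 (M : ℕ) [NeZero M] : HasExp M 0 0 := by
  have h := HasExp.algebraMap M (0 : Kbar)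
  rwa [map_zero, map_zero] at h

/-! ### the characteristic polynomial of the Fricke functions -/

/-- `Π_v (T - F_v)`. -/
def frickePoly (M : ℕ) [NeZero M] : Polynomial Fun :=
  ∏ v : VIdx M, (Polynomial.X - Polynomial.C (frickeIdx M v))

theorem frickePoly_monic (M : ℕ) [NeZero M] : (frickePoly M).Monic :=
  Polynomial.monic_prod_of_monic _ _ fun v _ => Polynomial.monic_X_sub_C _

theorem frickePoly_eval (M : ℕ) [NeZero M] (v : VIdx M) :
    (frickePoly M).eval (frickeIdx M v) = 0 := by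
  rw [frickePoly, Polynomial.eval_prod]
  exact Finset.prod_eq_zero (Finset.mem_univ v) (by simp)

theorem frickePoly_coeff_smul (hP : XPeriodStatement) (hS : FrickeSmulStatement) (M : ℕ)
    [NeZero M] (γ : SL(2, ℤ)) (k : ℕ) :
    γ • (frickePoly M).coeff k = (frickePoly M).coeff k := by
  have h1 : (frickePoly M).map (MulSemiringAction.toRingHom SL(2, ℤ) Fun γ) = frickePoly M := by
    rw [frickePoly, Polynomial.map_prod]
    have h2 : ∀ v : VIdx M, (Polynomial.X - Polynomial.C (frickeIdx M v)).map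
        (MulSemiringAction.toRingHom SL(2, ℤ) Fun γ)
          = Polynomial.X - Polynomial.C (frickeIdx M (actIdx M γ⁻¹ v)) := by
      intro v
      rw [Polynomial.map_sub, Polynomial.map_X, Polynomial.map_C,
        MulSemiringAction.toRingHom_apply, frickeIdx_smul hP hS]
    simp only [h2]
    exact Equiv.prod_comp (actIdx M γ⁻¹)
      (fun v => (Polynomial.X - Polynomial.C (frickeIdx M v) : Polynomial Fun))
  have h3 := congrArg (fun Q : Polynomial Fun => Q.coeff k) h1
  simpa [Polynomial.coeff_map] using h3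

theorem frickePoly_coeff_mem (hH : FrickeHolStatement) (hE : FrickeExpStatement) (M : ℕ)
    [NeZero M] (k : ℕ) : (frickePoly M).coeff k ∈ goodSub M := by
  have hF : ∀ v : VIdx M, frickeIdx M v ∈ goodSub M := fun v =>
    ⟨hH M _ _ (isNZ_val M v), (hE M).1 _ _ (isNZ_val M v)⟩
  have h1 : frickePoly M = (∏ v : VIdx M,
      (Polynomial.X - Polynomial.C (⟨frickeIdx M v, hF v⟩ : goodSub M))).map
        (goodSub M).val.toRingHom := by
    rw [frickePoly, Polynomial.map_prod]
    refine Finset.prod_congr rfl fun v _ => ?_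
    rw [Polynomial.map_sub, Polynomial.map_X, Polynomial.map_C]
    rfl
  rw [h1, Polynomial.coeff_map]
  exact Subtype.property _

/-- **(A1d)**, formal version. -/
theorem frickeIntegral_of (hH : FrickeHolStatement) (hS : FrickeSmulStatement)
    (hP : XPeriodStatement) (hE : FrickeExpStatement) : FrickeIntegralStatement := by
  intro M _ a ha
  -- the coefficients are polynomials in `j`
  have hc : ∀ k : ℕ, ∃ Pk : Polynomial Kbar,
      Polynomial.aeval jFun Pk = (frickePoly M).coeff k := by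
    intro k
    obtain ⟨hhol, b, hb⟩ := frickePoly_coeff_mem hH hE M k
    exact invariant M _ b hhol (fun γ => frickePoly_coeff_smul hP hS M γ k) hb
  choose Pk hPk using hc
  set n := (frickePoly M).natDegree with hn
  refine ⟨Polynomial.X ^ n + ∑ k : Fin n, Polynomial.C (Pk k) * Polynomial.X ^ (k : ℕ),
    Polynomial.monic_X_pow_add (Polynomial.degree_sum_fin_lt _), ?_⟩
  -- the point `v₀ = (a, 0)`
  have hv0 : ((a, 0) : ZMod M × ZMod M) ≠ 0 := by
    intro h
    exact ha (Prod.mk_eq_zero.mp h).1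
  let v₀ : VIdx M := ⟨(a, 0), hv0⟩
  have hF0 : frickeIdx M v₀ = frickeFun M ((a.val : ℕ) : ℤ) 0 := by
    show frickeFun M ((a.val : ℕ) : ℤ) (((0 : ZMod M).val : ℕ) : ℤ) = _
    rw [ZMod.val_zero]
    rfl
  have hexp : HasExp M (frickeIdx M v₀) (coeffEmb Kbar (fricke M a)) := by
    rw [hF0]
    have h := (hE M).2 ((a.val : ℕ) : ℤ)
      (by exact_mod_cast (ZMod.val_pos.mpr ha)) (by exact_mod_cast ZMod.val_lt a)
    rwa [cast_val_a1] at h
  -- the equation in `Fun`
  have hzero : Polynomial.eval₂ (Polynomial.aeval jFun : Polynomial Kbar →ₐ[Kbar] Fun).toRingHom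
      (frickeIdx M v₀)
      (Polynomial.X ^ n + ∑ k : Fin n, Polynomial.C (Pk k) * Polynomial.X ^ (k : ℕ)) = 0 := by
    rw [Polynomial.eval₂_add, Polynomial.eval₂_pow, Polynomial.eval₂_X, Polynomial.eval₂_finsetSum]
    have h1 : ∀ k : Fin n, Polynomial.eval₂
        (Polynomial.aeval jFun : Polynomial Kbar →ₐ[Kbar] Fun).toRingHom (frickeIdx M v₀)
        (Polynomial.C (Pk k) * Polynomial.X ^ (k : ℕ))
          = (frickePoly M).coeff k * frickeIdx M v₀ ^ (k : ℕ) := by
      intro k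
      rw [Polynomial.eval₂_mul, Polynomial.eval₂_C, Polynomial.eval₂_pow, Polynomial.eval₂_X]
      congr 1
      exact hPk k
    simp only [h1]
    have h2 := frickePoly_eval M v₀
    rw [(frickePoly_monic M).as_sum, Polynomial.eval_add, Polynomial.eval_pow, Polynomial.eval_X,
      Polynomial.eval_finsetSum] at h2
    simp only [Polynomial.eval_mul, Polynomial.eval_C, Polynomial.eval_pow, Polynomial.eval_X]
      at h2
    rw [← hn] at h2
    rw [Fin.sum_univ_eq_sum_range
      (fun k => (frickePoly M).coeff k * frickeIdx M v₀ ^ k) n]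
    exact h2
  have h3 := hasExp_eval₂_a1 (hasExp_jFun M) hexp
    (Polynomial.X ^ n + ∑ k : Fin n, Polynomial.C (Pk k) * Polynomial.X ^ (k : ℕ))
  rw [hzero] at h3
  exact h3.unique (hasExp_zero_a1 M)



/-- descent of integrality along an injective ring homomorphism `ι : L → LK`, where the
coefficients are allowed to involve elements of `LK` integral over `K`. -/
theorem alg_descent {K L LK C : Type*} [Field K] [Field L] [Field LK] [CommRing C] [Algebra K L]
    (ι : L →+* LK) (g : C →+* LK)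
    (hg : ∀ c : C, ∃ p : K[X], p.Monic ∧ eval₂ (ι.comp (algebraMap K L)) (g c) p = 0)
    (j : K) (x : L) (P : Polynomial (Polynomial C)) (hPm : P.Monic)
    (hP : eval₂ (eval₂RingHom g (ι (algebraMap K L j))) (ι x) P = 0) :
    IsAlgebraic K x := by
  let _ : Algebra K LK := (ι.comp (algebraMap K L)).toAlgebra
  have hmap : ∀ k : K, algebraMap K LK k = ι (algebraMap K L k) := fun _ => rfl
  let f : L →ₐ[K] LK := { ι with commutes' := fun _ => rfl }
  have hf : Function.Injective f := ι.injective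
  let A : Subalgebra K LK := Algebra.adjoin K (Set.range g)
  have hA : Algebra.IsIntegral K A := by
    refine Algebra.IsIntegral.adjoin ?_
    rintro _ ⟨c, rfl⟩
    obtain ⟨p, hp, h0⟩ := hg c
    exact ⟨p, hp, h0⟩
  -- the coefficient homomorphism
  let g' : C →+* A := g.codRestrict A.toSubring
    (fun c => Algebra.subset_adjoin ⟨c, rfl⟩)
  let jA : A := ⟨ι (algebraMap K L j), by
    rw [← hmap]
    exact A.algebraMap_mem j⟩
  let φ : Polynomial C →+* A := eval₂RingHom g' jA
  have hφ : (algebraMap A LK).comp φ = eval₂RingHom g (ι (algebraMap K L j)) := by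
    refine Polynomial.ringHom_ext (fun c => ?_) ?_
    · simp [φ, g']
    · simp [φ, jA]
  have hint : IsIntegral A (ι x) := by
    refine ⟨P.map φ, hPm.map φ, ?_⟩
    rw [eval₂_map, hφ]
    exact hP
  have h1 : IsIntegral K (ι x) := isIntegral_trans (ι x) hint
  have h2 : IsIntegral K (f x) := h1
  exact ((isIntegral_algHom_iff f hf).mp h2).isAlgebraic

theorem coeffEmb_jq_a1 : coeffEmb Kbar jq = jqModC Kbar := by
  rw [← jqModC_rat]
  exact map_jqModC (algebraMap ℚ Kbar)

theorem coeffEmb_jqM_a1 (M : ℕ) [NeZero M] :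
    coeffEmb Kbar (qExpand ℚ M jq) = qExpand Kbar M (jqModC Kbar) := by
  rw [coeffEmb_qExpand_w, coeffEmb_jq_a1]

/-- **(A1d)** the Fricke functions are algebraic over the function field of `X₀(M)`. -/
theorem frickeAlgebraicOne_of (h : FrickeIntegralStatement) (M : ℕ) [NeZero M] :
    FrickeAlgebraicOne M := by
  intro a ha
  obtain ⟨P, hPm, hP⟩ := h M a ha
  refine alg_descent (K := modularFunctionFieldFull M) (coeffEmb Kbar)
    (algebraMap Kbar (LaurentSeries Kbar)) ?_
    ⟨qExpand ℚ M jq, jqd_mem_full M (dvd_refl M)⟩ (fricke M a) P hPm ?_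
  · intro c
    haveI : Algebra.IsAlgebraic ℚ Kbar := AlgebraicClosure.isAlgebraic ℚ
    obtain ⟨p, hp, h0⟩ := (Algebra.IsIntegral.isIntegral (R := ℚ) c : IsIntegral ℚ c)
    refine ⟨p.map (algebraMap ℚ (modularFunctionFieldFull M)), hp.map _, ?_⟩
    rw [eval₂_map]
    have e : ((coeffEmb Kbar).comp (algebraMap (modularFunctionFieldFull M) (LaurentSeries ℚ))).comp
        (algebraMap ℚ (modularFunctionFieldFull M))
          = (algebraMap Kbar (LaurentSeries Kbar)).comp (algebraMap ℚ Kbar) :=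
      RingHom.ext_rat _ _
    rw [e, ← Polynomial.hom_eval₂, h0, map_zero]
  · have e : (Polynomial.aeval (qExpand Kbar M (jqModC Kbar)) :
          Polynomial Kbar →ₐ[Kbar] LaurentSeries Kbar).toRingHom
        = eval₂RingHom (algebraMap Kbar (LaurentSeries Kbar))
          (coeffEmb Kbar (algebraMap (modularFunctionFieldFull M) (LaurentSeries ℚ)
            ⟨qExpand ℚ M jq, jqd_mem_full M (dvd_refl M)⟩)) := by
      refine Polynomial.ringHom_ext (fun c => ?_) ?_
      · simp
      · simp only [AlgHom.toRingHom_eq_coe, RingHom.coe_coe, aeval_X, coe_eval₂RingHom, eval₂_X]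
        exact (coeffEmb_jqM_a1 M).symm
    rw [← e]
    exact hP


/-- **(A1d)**, `ℚ̄`-form. -/
theorem frickeAlgebraicBarOne_of_integral (h : FrickeIntegralStatement) (M : ℕ) [NeZero M] :
    FrickeAlgebraicBarOne M := by
  intro a ha
  obtain ⟨P, hPm, hP⟩ := h M a ha
  refine isAlgebraic_bar_of_monic M _ P hPm ?_
  rw [coeffEmb_jqM_a1]
  exact hP

end Fermat.Agent.S48WA1
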