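/-
S48 wall (W), HUB A1, seat DIAM (helper53): the diamond substitution over `ℂ`.

`diamondComplexOne_of : FrickeOneExpStatement → FrickeOneSmulStatement → ∀ M, DiamondComplexOne M`.

For `d : (ZMod M)ˣ` choose `γ ∈ Γ₀(M)` with upper left entry `≡ d` (`diam_exists_gamma`).  A Laurent
series `x` over `ℂ` is GOOD for `γ` if it is the expansion (in `q = e(τ)`, on the whole upper half
plane) of a function `f` such that `f ∘ γ` has an expansion `y` as well; `y` is determined by `x`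
(`F3Dict.HasExp.fun_unique`, `F3Dict.HasExp.unique`), the good series form a `ℂ`-subalgebra
`diamGood γ` and `x ↦ y` is a homomorphism of `ℂ`-algebras `diamMap γ`.  The generators are good:
`j(q^e)` (`e ∣ M`) is the expansion of `j(eτ)`, which is `Γ₀(M)`-invariant, and `fricke M a` is the
expansion of `frickeOne M a`, with `frickeOne M a ∘ γ = frickeOne M (a γ₀₀)`.
-/
import Mathlib
import Fermat.Agent.S48.W.A1.Defs
import Fermat.Agent.S48.W.H.Defs
import Fermat.Agent.F3.DictC.GensExp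
import Fermat.Agent.F3.DictC.Periods
import Fermat.Prelude.Def_ModularCurve_X0ModL
import Fermat.Prelude.Thm_ModularCurve_coeffMap_qExpand

set_option autoImplicit false

noncomputable section

namespace Fermat.Agent.S48WA1

section JD

open Fermat.Agent.F3Dict UpperHalfPlane ModularCurve

/-- the `q`-expansion of `j(dτ)` is `j(q^d)` (over `ℂ`; copy of `F3DegW.hasExp_one_jd`). -/
theorem diam_hasExp_one_jd (d : ℕ) [NeZero d] :
    HasExp 1 (jd d) (qExpand Kc d (jqModC Kc)) := by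
  have hd0 : 0 < d := Nat.pos_of_ne_zero (NeZero.ne d)
  rw [GensExp.qExpand_jqModC]
  have hφ : ∀ τ : ℍ, uParam 1 (scale d τ) = iota 1 * uParam 1 τ ^ d := by
    intro τ
    rw [uParam_one_scale 1 d τ, map_one, one_mul, one_mul]
  exact GensExp.hasExp_subst hasPExp_jFun (scale d) 1 GensExp.iota_one_norm d hd0 hφ

end JD

open Fermat.Agent.S24 Fermat.Agent.S48W UpperHalfPlane ModularCurve
open scoped MatrixGroups Real

/-! ### from `ℚ̄`-expansions to `ℂ`-expansions -/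

theorem diam_hasPExp_bridge {f : Fermat.Agent.S24.Fun} {p : PowerSeries Kbar}
    (h : Fermat.Agent.S24.HasPExp 1 f p) :
    Fermat.Agent.F3Dict.HasPExp 1 (fun τ => f τ) (p.map iota) := by
  intro τ
  obtain ⟨h1, h2⟩ := h τ
  refine ⟨?_, ?_⟩
  · have e : (fun n : ℕ => ‖Fermat.Agent.F3Dict.iota (PowerSeries.coeff n (p.map iota))‖ *
        ‖Fermat.Agent.F3Dict.uParam 1 τ‖ ^ n)
        = fun n : ℕ => ‖iota (PowerSeries.coeff n p)‖ * ‖uParam 1 τ‖ ^ n := by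
      funext n
      rw [PowerSeries.coeff_map]
      rfl
    rw [e]
    exact h1
  · have e : (fun n : ℕ => Fermat.Agent.F3Dict.iota (PowerSeries.coeff n (p.map iota)) *
        Fermat.Agent.F3Dict.uParam 1 τ ^ n)
        = fun n : ℕ => iota (PowerSeries.coeff n p) * uParam 1 τ ^ n := by
      funext n
      rw [PowerSeries.coeff_map]
      rfl
    rw [e]
    exact h2

theorem diam_hasExp_bridge {f : Fermat.Agent.S24.Fun} {a : LaurentSeries Kbar}
    (h : Fermat.Agent.S24.HasExp 1 f a) :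
    Fermat.Agent.F3Dict.HasExp 1 (fun τ => f τ) (coeffMap iota a) := by
  obtain ⟨m, p, rfl, hp⟩ := h
  refine ⟨m, p.map iota, ?_, ?_⟩
  · rw [map_mul, coeffMap_single, map_one, coeffMap_ofPowerSeries]
  · exact diam_hasPExp_bridge hp

theorem diam_coeffMap_coeffEmb (x : LaurentSeries ℚ) :
    coeffMap iota (coeffEmb Kbar x) = coeffEmb ℂ x := by
  rw [coeffEmb, coeffMap_coeffMap]
  exact coeffMap_congr (RingHom.ext fun c => by simp) x

/-! ### the matrix -/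

theorem diam_exists_gamma (M : ℕ) [NeZero M] (d : (ZMod M)ˣ) :
    ∃ γ : SL(2, ℤ), γ ∈ CongruenceSubgroup.Gamma0 M ∧ ((γ 0 0 : ℤ) : ZMod M) = d := by
  have hcop : Nat.Coprime (d : ZMod M).val M := ZMod.val_coe_unit_coprime d
  have hcop' : IsCoprime (((d : ZMod M).val : ℕ) : ℤ) (M : ℤ) := Nat.isCoprime_iff_coprime.mpr hcop
  obtain ⟨u, v, huv⟩ := hcop'
  refine ⟨⟨!![(((d : ZMod M).val : ℕ) : ℤ), -v; (M : ℤ), u], ?_⟩, ?_, ?_⟩
  · rw [Matrix.det_fin_two_of]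
    linear_combination huv
  · rw [CongruenceSubgroup.Gamma0_mem]
    show (((M : ℤ) : ℤ) : ZMod M) = 0
    rw [Int.cast_natCast, ZMod.natCast_self]
  · show (((((d : ZMod M).val : ℕ) : ℤ)) : ZMod M) = d
    rw [Int.cast_natCast, ZMod.natCast_zmod_val]

theorem diam_Gamma0_le_of_dvd {e M : ℕ} (h : e ∣ M) {γ : SL(2, ℤ)}
    (hγ : γ ∈ CongruenceSubgroup.Gamma0 M) : γ ∈ CongruenceSubgroup.Gamma0 e := by
  rw [CongruenceSubgroup.Gamma0_mem] at hγ ⊢
  rw [ZMod.intCast_zmod_eq_zero_iff_dvd] at hγ ⊢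
  exact (Int.natCast_dvd_natCast.mpr h).trans hγ

/-! ### good series -/

/-- `f ∘ γ`. -/
def diamComp (γ : SL(2, ℤ)) (f : Fermat.Agent.F3Dict.Fun) : Fermat.Agent.F3Dict.Fun :=
  fun τ => f (γ • τ)

theorem diamComp_add (γ : SL(2, ℤ)) (f g : Fermat.Agent.F3Dict.Fun) :
    diamComp γ (f + g) = diamComp γ f + diamComp γ g := rfl

theorem diamComp_mul (γ : SL(2, ℤ)) (f g : Fermat.Agent.F3Dict.Fun) :
    diamComp γ (f * g) = diamComp γ f * diamComp γ g := rfl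

theorem diamComp_algebraMap (γ : SL(2, ℤ)) (c : ℂ) :
    diamComp γ (algebraMap Fermat.Agent.F3Dict.Kc Fermat.Agent.F3Dict.Fun c)
      = algebraMap Fermat.Agent.F3Dict.Kc Fermat.Agent.F3Dict.Fun c := rfl

/-- `x` is the expansion of a function `f` such that `f ∘ γ` has the expansion `y`. -/
def DiamRel (γ : SL(2, ℤ)) (x y : LaurentSeries ℂ) : Prop :=
  ∃ f : Fermat.Agent.F3Dict.Fun,
    Fermat.Agent.F3Dict.HasExp 1 f x ∧ Fermat.Agent.F3Dict.HasExp 1 (diamComp γ f) y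

theorem DiamRel.unique {γ : SL(2, ℤ)} {x y y' : LaurentSeries ℂ} (h : DiamRel γ x y)
    (h' : DiamRel γ x y') : y = y' := by
  obtain ⟨f, hf, hfy⟩ := h
  obtain ⟨f', hf', hfy'⟩ := h'
  have e : f = f' := Fermat.Agent.F3Dict.HasExp.fun_unique hf hf'
  subst e
  exact Fermat.Agent.F3Dict.HasExp.unique hfy hfy'

theorem DiamRel.add {γ : SL(2, ℤ)} {x y x' y' : LaurentSeries ℂ} (h : DiamRel γ x y)
    (h' : DiamRel γ x' y') : DiamRel γ (x + x') (y + y') := by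
  obtain ⟨f, hf, hfy⟩ := h
  obtain ⟨f', hf', hfy'⟩ := h'
  exact ⟨f + f', hf.add hf', by rw [diamComp_add]; exact hfy.add hfy'⟩

theorem DiamRel.mul {γ : SL(2, ℤ)} {x y x' y' : LaurentSeries ℂ} (h : DiamRel γ x y)
    (h' : DiamRel γ x' y') : DiamRel γ (x * x') (y * y') := by
  obtain ⟨f, hf, hfy⟩ := h
  obtain ⟨f', hf', hfy'⟩ := h'
  exact ⟨f * f', hf.mul hf', by rw [diamComp_mul]; exact hfy.mul hfy'⟩

theorem DiamRel.algebraMap (γ : SL(2, ℤ)) (c : ℂ) :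
    DiamRel γ (algebraMap ℂ (LaurentSeries ℂ) c) (algebraMap ℂ (LaurentSeries ℂ) c) :=
  ⟨_, Fermat.Agent.F3Dict.HasExp.algebraMap 1 c, by
    rw [diamComp_algebraMap]; exact Fermat.Agent.F3Dict.HasExp.algebraMap 1 c⟩

/-- the algebra of the good series. -/
def diamGood (γ : SL(2, ℤ)) : Subalgebra ℂ (LaurentSeries ℂ) where
  carrier := {x | ∃ y, DiamRel γ x y}
  mul_mem' := by
    rintro x x' ⟨y, h⟩ ⟨y', h'⟩
    exact ⟨y * y', h.mul h'⟩
  add_mem' := by
    rintro x x' ⟨y, h⟩ ⟨y', h'⟩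
    exact ⟨y + y', h.add h'⟩
  algebraMap_mem' := fun c => ⟨_, DiamRel.algebraMap γ c⟩

theorem mem_diamGood {γ : SL(2, ℤ)} {x : LaurentSeries ℂ} :
    x ∈ diamGood γ ↔ ∃ y, DiamRel γ x y := Iff.rfl

/-- the expansion of `f ∘ γ`, as a function of the expansion of `f`. -/
def diamFun (γ : SL(2, ℤ)) (x : diamGood γ) : LaurentSeries ℂ := (mem_diamGood.mp x.2).choose

theorem diamFun_spec (γ : SL(2, ℤ)) (x : diamGood γ) : DiamRel γ (x : LaurentSeries ℂ) (diamFun γ x) :=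
  (mem_diamGood.mp x.2).choose_spec

theorem diamFun_eq {γ : SL(2, ℤ)} {x y : LaurentSeries ℂ} (h : DiamRel γ x y)
    (hx : x ∈ diamGood γ) : diamFun γ ⟨x, hx⟩ = y :=
  (diamFun_spec γ ⟨x, hx⟩).unique h

/-- `x ↦ y` as a homomorphism of `ℂ`-algebras. -/
def diamMap (γ : SL(2, ℤ)) : diamGood γ →ₐ[ℂ] LaurentSeries ℂ where
  toFun := diamFun γ
  map_one' := by
    have h := DiamRel.algebraMap γ 1
    rw [map_one] at h
    exact diamFun_eq h _
  map_mul' x x' := diamFun_eq ((diamFun_spec γ x).mul (diamFun_spec γ x')) _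
  map_zero' := by
    have h := DiamRel.algebraMap γ 0
    rw [map_zero] at h
    exact diamFun_eq h _
  map_add' x x' := diamFun_eq ((diamFun_spec γ x).add (diamFun_spec γ x')) _
  commutes' c := diamFun_eq (DiamRel.algebraMap γ c) _

theorem diamMap_eq {γ : SL(2, ℤ)} {x y : LaurentSeries ℂ} (h : DiamRel γ x y)
    (hx : x ∈ diamGood γ) : diamMap γ ⟨x, hx⟩ = y :=
  diamFun_eq h hx

/-! ### the generators are good -/

/-- the `q`-expansion of `j(eτ)` is `j(q^e)` (over `ℂ`). -/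
theorem diam_hasExp_jd (e : ℕ) [NeZero e] :
    Fermat.Agent.F3Dict.HasExp 1 (Fermat.Agent.F3Dict.jd e) (coeffEmb ℂ (qExpand ℚ e jq)) := by
  have h := diam_hasExp_one_jd e
  have e1 : coeffEmb ℂ (qExpand ℚ e jq)
      = qExpand Fermat.Agent.F3Dict.Kc e (jqModC Fermat.Agent.F3Dict.Kc) := by
    rw [coeffEmb, coeffMap_qExpand, ← jqModC_rat, coeffMap_jqModC]
  rw [e1]
  exact h

theorem diamRel_jd {M : ℕ} [NeZero M] {γ : SL(2, ℤ)} (hγ : γ ∈ CongruenceSubgroup.Gamma0 M)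
    (e : ℕ) [NeZero e] (he : e ∣ M) :
    DiamRel γ (coeffEmb ℂ (qExpand ℚ e jq)) (coeffEmb ℂ (qExpand ℚ e jq)) := by
  refine ⟨Fermat.Agent.F3Dict.jd e, diam_hasExp_jd e, ?_⟩
  have e1 : diamComp γ (Fermat.Agent.F3Dict.jd e) = Fermat.Agent.F3Dict.jd e := by
    funext τ
    exact Fermat.Agent.F3Dict.Periods.jd_apply_smul_of_mem_Gamma0 e γ
      (diam_Gamma0_le_of_dvd he hγ) τ
  rw [e1]
  exact diam_hasExp_jd e

theorem diamRel_fricke (hE : FrickeOneExpStatement) (hS : FrickeOneSmulStatement)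
    {M : ℕ} [NeZero M] {γ : SL(2, ℤ)} (hγ : γ ∈ CongruenceSubgroup.Gamma0 M)
    (d : (ZMod M)ˣ) (hd : ((γ 0 0 : ℤ) : ZMod M) = d) (a : ZMod M) (ha : a ≠ 0) :
    DiamRel γ (coeffEmb ℂ (fricke M a)) (coeffEmb ℂ (fricke M ((d : ZMod M) * a))) := by
  have ha' : (((a.val : ℕ) : ℤ) : ZMod M) = a := by
    rw [Int.cast_natCast, ZMod.natCast_zmod_val]
  have hnd : ¬ (M : ℤ) ∣ ((a.val : ℕ) : ℤ) := by
    rw [← ZMod.intCast_zmod_eq_zero_iff_dvd, ha']
    exact ha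
  have hda : (((((a.val : ℕ) : ℤ) * γ 0 0 : ℤ)) : ZMod M) = (d : ZMod M) * a := by
    rw [Int.cast_mul, ha', hd, mul_comm]
  have hda0 : (d : ZMod M) * a ≠ 0 := by
    intro h0
    apply ha
    have := congrArg (fun z => ((d⁻¹ : (ZMod M)ˣ) : ZMod M) * z) h0
    simpa [← mul_assoc] using this
  have hnd' : ¬ (M : ℤ) ∣ (((a.val : ℕ) : ℤ) * γ 0 0) := by
    rw [← ZMod.intCast_zmod_eq_zero_iff_dvd, hda]
    exact hda0
  have h1 := diam_hasExp_bridge (hE M ((a.val : ℕ) : ℤ) hnd)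
  rw [ha', diam_coeffMap_coeffEmb] at h1
  have h2 := diam_hasExp_bridge (hE M (((a.val : ℕ) : ℤ) * γ 0 0) hnd')
  rw [hda, diam_coeffMap_coeffEmb] at h2
  refine ⟨fun τ => frickeOne M ((a.val : ℕ) : ℤ) τ, h1, ?_⟩
  have e1 : diamComp γ (fun τ => frickeOne M ((a.val : ℕ) : ℤ) τ)
      = fun τ => frickeOne M (((a.val : ℕ) : ℤ) * γ 0 0) τ := by
    funext τ
    exact hS M ((a.val : ℕ) : ℤ) γ hγ τ
  rw [e1]
  exact h2

/-- **(A1-DIAM)** the diamond substitution over `ℂ`. -/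
theorem diamondComplexOne_of (hE : FrickeOneExpStatement) (hS : FrickeOneSmulStatement)
    (M : ℕ) [NeZero M] : DiamondComplexOne M := by
  intro d
  obtain ⟨γ, hγ, hγd⟩ := diam_exists_gamma M d
  have hgen : Algebra.adjoin ℂ (⇑(coeffEmb ℂ) '' genOne M) ≤ diamGood γ := by
    refine Algebra.adjoin_le ?_
    rintro _ ⟨x, hx, rfl⟩
    rcases hx with ⟨e, he, heM, rfl⟩ | ⟨a, ha, rfl⟩
    · exact ⟨_, diamRel_jd hγ e heM⟩
    · exact ⟨_, diamRel_fricke hE hS hγ d hγd a ha⟩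
  refine ⟨(diamMap γ).comp (Subalgebra.inclusion hgen), ?_, ?_⟩
  · rintro x ⟨e, he, heM, rfl⟩ hx
    exact diamMap_eq (diamRel_jd hγ e heM) _
  · intro a ha hx
    exact diamMap_eq (diamRel_fricke hE hS hγ d hγd a ha) _

end Fermat.Agent.S48WA1
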