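/-
S48 wall (W), HUB A1 (helper70): WIRING.  Everything the hub delivers, from the single remaining
input `XExpStatement` (seat XEXP):

* `a1_frickeIntegral_of`       : `FrickeIntegralStatement`,
* `a1_frickeAlgebraicOne_of`   : `S48W.FrickeAlgebraicOne M`      (A1d, `ℚ`-form),
* `a1_frickeAlgebraicBarOne_of`: `S48W.FrickeAlgebraicBarOne M`   (A1d, `ℚ̄`-form, consumed by H-FF),
* `a1_diamondComplexOne_of`    : `S48W.DiamondComplexOne M`       (consumed by H-DIAM),
* `a1_frickeExp_of`, `a1_frickeOneExp_of`, `a1_frickeHol_of`, `a1_xHol_of`.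
-/
import Mathlib
import Fermat.Agent.S48.W.A1.Alg
import Fermat.Agent.S48.W.A1.Slash
import Fermat.Agent.S48.W.A1.EqExp
import Fermat.Agent.S48.W.A1.FExp
import Fermat.Agent.S48.W.A1.Hol
import Fermat.Agent.S48.W.A1.Diam

set_option autoImplicit false

noncomputable section

namespace Fermat.Agent.S48WA1

open Fermat.Agent.S24 Fermat.Agent.S48W

theorem a1_xHol_of (hX : XExpStatement) : XHolStatement := xHol_of hX xPeriod

theorem a1_frickeHol_of (hX : XExpStatement) : FrickeHolStatement := frickeHol_of hX xPeriod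

theorem a1_frickeExp_of (hX : XExpStatement) : FrickeExpStatement :=
  frickeExp_of hX xPeriod Fermat.Agent.S48WA1Eq.eqExp

theorem a1_frickeOneExp_of (hX : XExpStatement) : FrickeOneExpStatement :=
  frickeOneExp_of hX xPeriod Fermat.Agent.S48WA1Eq.eqExp

theorem a1_frickeIntegral_of (hX : XExpStatement) : FrickeIntegralStatement :=
  frickeIntegral_of (a1_frickeHol_of hX) frickeSmul xPeriod (a1_frickeExp_of hX)

theorem a1_frickeAlgebraicOne_of (hX : XExpStatement) (M : ℕ) [NeZero M] :
    FrickeAlgebraicOne M :=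
  frickeAlgebraicOne_of (a1_frickeIntegral_of hX) M

theorem a1_frickeAlgebraicBarOne_of (hX : XExpStatement) (M : ℕ) [NeZero M] :
    FrickeAlgebraicBarOne M :=
  frickeAlgebraicBarOne_of_integral (a1_frickeIntegral_of hX) M

theorem a1_diamondComplexOne_of (hX : XExpStatement) (M : ℕ) [NeZero M] :
    DiamondComplexOne M :=
  diamondComplexOne_of (a1_frickeOneExp_of hX) frickeOneSmul M

end Fermat.Agent.S48WA1
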