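/-
S48 wall (W), HUB A1 (helper70): FINAL, unconditional deliverables of the hub.

* `frickeAlgebraicOne M`    : `S48W.FrickeAlgebraicOne M`      (A1d, `ℚ`-form),
* `frickeAlgebraicBarOne M` : `S48W.FrickeAlgebraicBarOne M`   (A1d, `ℚ̄`-form, consumed by H-FF),
* `diamondComplexOne M`     : `S48W.DiamondComplexOne M`       (consumed by H-DIAM),
* `frickeIntegral`, `frickeExp`, `frickeOneExp`, `frickeHol`, `xHol` (the statements of
  `A1/Defs.lean`); `xExp`, `xSlash`, `xPeriod`, `frickeSmul`, `frickeOneSmul`, `invariant`, `eqExp`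
  are in the files of their seats.
-/
import Mathlib
import Fermat.Agent.S48.W.A1.Wire
import Fermat.Agent.S48.W.A1.XExp

set_option autoImplicit false

noncomputable section

namespace Fermat.Agent.S48WA1

open Fermat.Agent.S24 Fermat.Agent.S48W

theorem xHol : XHolStatement := a1_xHol_of xExp

theorem frickeHol : FrickeHolStatement := a1_frickeHol_of xExp

theorem frickeExp : FrickeExpStatement := a1_frickeExp_of xExp

theorem frickeOneExp : FrickeOneExpStatement := a1_frickeOneExp_of xExp

theorem frickeIntegral : FrickeIntegralStatement := a1_frickeIntegral_of xExp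

/-- **(A1d)**, `ℚ`-form. -/
theorem frickeAlgebraicOne (M : ℕ) [NeZero M] : FrickeAlgebraicOne M :=
  a1_frickeAlgebraicOne_of xExp M

/-- **(A1d)**, `ℚ̄`-form. -/
theorem frickeAlgebraicBarOne (M : ℕ) [NeZero M] : FrickeAlgebraicBarOne M :=
  a1_frickeAlgebraicBarOne_of xExp M

/-- **(A1b)** the diamond substitution over `ℂ`. -/
theorem diamondComplexOne (M : ℕ) [NeZero M] : DiamondComplexOne M :=
  a1_diamondComplexOne_of xExp M

end Fermat.Agent.S48WA1
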