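/-
S48 wall (W), HUB A1, seat XEXP, part (R) (helper15 for helper41): the two reindexing lemmas
for the sums over the divisors in a congruence class modulo `M`.
-/
import Mathlib

set_option autoImplicit false

namespace Fermat.Agent.S48WA1

/-- `(d : ZMod M) = (r₀ : ZMod M)` for natural numbers, as a divisibility of integers. -/
theorem xeR_cast_eq_iff (M : ℕ) (d r₀ : ℕ) :
    ((d : ℕ) : ZMod M) = ((r₀ : ℤ) : ZMod M) ↔ (M : ℤ) ∣ (d : ℤ) - r₀ := by
  have h : ((d : ℕ) : ZMod M) = (((d : ℤ)) : ZMod M) := by push_cast; rfl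
  rw [h, ZMod.intCast_eq_intCast_iff_dvd_sub]
  constructor
  · intro hd
    have := dvd_neg.mpr hd
    simpa using this
  · intro hd
    have := dvd_neg.mpr hd
    simpa using this

/-- `(d : ZMod M) = -(r₀ : ZMod M)` for natural numbers, as a divisibility of integers. -/
theorem xeR_cast_eq_neg_iff (M : ℕ) (d r₀ : ℕ) :
    ((d : ℕ) : ZMod M) = -((r₀ : ℤ) : ZMod M) ↔ (M : ℤ) ∣ (d : ℤ) + r₀ := by
  have h : ((d : ℕ) : ZMod M) = (((d : ℤ)) : ZMod M) := by push_cast; rfl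
  have h2 : -((r₀ : ℤ) : ZMod M) = (((-(r₀ : ℤ) : ℤ)) : ZMod M) := by push_cast; rfl
  rw [h, h2, ZMod.intCast_eq_intCast_iff_dvd_sub]
  constructor
  · intro hd
    have := dvd_neg.mpr hd
    have e : -(-(r₀ : ℤ) - (d : ℤ)) = (d : ℤ) + r₀ := by ring
    rwa [e] at this
  · intro hd
    have := dvd_neg.mpr hd
    have e : -((d : ℤ) + r₀) = -(r₀ : ℤ) - (d : ℤ) := by ring
    rwa [e] at this

theorem xeR_reindex_A (M : ℕ) [NeZero M] (r₀ : ℕ) (hr : 0 < r₀) (hrM : r₀ < M) (g : ℕ → ℂ) (S : ℂ)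
    (h : HasSum (fun d : ℕ+ => if (((d : ℕ) : ZMod M) = ((r₀ : ℤ) : ZMod M)) then g d else 0) S) :
    HasSum (fun m : ℕ => g (r₀ + M * m)) S := by
  let i : ℕ → ℕ+ := fun m => ⟨r₀ + M * m, by omega⟩
  have hi : Function.Injective i := by
    intro a b hab
    have h1 : r₀ + M * a = r₀ + M * b := congrArg (fun x : ℕ+ => (x : ℕ)) hab
    have hM : 0 < M := Nat.pos_of_ne_zero (NeZero.ne M)
    have h2 : M * a = M * b := by omega
    exact Nat.eq_of_mul_eq_mul_left hM h2
  have hrange : ∀ d : ℕ+, d ∉ Set.range i →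
      (if (((d : ℕ) : ZMod M) = ((r₀ : ℤ) : ZMod M)) then g d else 0) = 0 := by
    intro d hd
    rw [if_neg]
    intro hc
    apply hd
    rw [xeR_cast_eq_iff] at hc
    obtain ⟨k, hk⟩ := hc
    have hd1 : (1 : ℤ) ≤ (d : ℕ) := by exact_mod_cast d.2
    have hM : (0 : ℤ) < M := by exact_mod_cast Nat.pos_of_ne_zero (NeZero.ne M)
    have hrM' : (r₀ : ℤ) < M := by exact_mod_cast hrM
    have hk0 : 0 ≤ k := by
      by_contra hneg
      push Not at hneg
      have : (M : ℤ) * k ≤ -M := by nlinarith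
      omega
    refine ⟨k.toNat, ?_⟩
    apply PNat.eq
    show r₀ + M * k.toNat = (d : ℕ)
    have hk' : ((k.toNat : ℕ) : ℤ) = k := Int.toNat_of_nonneg hk0
    have : ((r₀ + M * k.toNat : ℕ) : ℤ) = ((d : ℕ) : ℤ) := by
      push_cast
      rw [hk']
      linarith
    exact_mod_cast this
  have key := (hi.hasSum_iff hrange).mpr h
  have hfun : (fun m : ℕ => g (r₀ + M * m)) =
      (fun d : ℕ+ => if (((d : ℕ) : ZMod M) = ((r₀ : ℤ) : ZMod M)) then g d else 0) ∘ i := by
    funext m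
    simp only [Function.comp_apply]
    rw [if_pos]
    · rfl
    · show (((r₀ + M * m : ℕ) : ℕ) : ZMod M) = ((r₀ : ℤ) : ZMod M)
      push_cast
      simp
  rw [hfun]
  exact key

theorem xeR_reindex_B (M : ℕ) [NeZero M] (r₀ : ℕ) (hrM : r₀ < M) (g : ℕ → ℂ) (S : ℂ)
    (h : HasSum (fun d : ℕ+ => if (((d : ℕ) : ZMod M) = -((r₀ : ℤ) : ZMod M)) then g d else 0) S) :
    HasSum (fun m : ℕ => g (M * (m + 1) - r₀)) S := by
  have hM : 0 < M := Nat.pos_of_ne_zero (NeZero.ne M)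
  have hle : ∀ m : ℕ, r₀ < M * (m + 1) := by
    intro m
    calc r₀ < M := hrM
      _ = M * 1 := (Nat.mul_one M).symm
      _ ≤ M * (m + 1) := Nat.mul_le_mul_left M (by omega)
  let i : ℕ → ℕ+ := fun m => ⟨M * (m + 1) - r₀, by have := hle m; omega⟩
  have hi : Function.Injective i := by
    intro a b hab
    have h1 : M * (a + 1) - r₀ = M * (b + 1) - r₀ := congrArg (fun x : ℕ+ => (x : ℕ)) hab
    have ha := hle a
    have hb := hle b
    have h2 : M * (a + 1) = M * (b + 1) := by omega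
    have h3 := Nat.eq_of_mul_eq_mul_left hM h2
    omega
  have hrange : ∀ d : ℕ+, d ∉ Set.range i →
      (if (((d : ℕ) : ZMod M) = -((r₀ : ℤ) : ZMod M)) then g d else 0) = 0 := by
    intro d hd
    rw [if_neg]
    intro hc
    apply hd
    rw [xeR_cast_eq_neg_iff] at hc
    obtain ⟨k, hk⟩ := hc
    have hd1 : (1 : ℤ) ≤ (d : ℕ) := by exact_mod_cast d.2
    have hMz : (0 : ℤ) < M := by exact_mod_cast hM
    have hr0 : (0 : ℤ) ≤ r₀ := by positivity
    have hk1 : 1 ≤ k := by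
      by_contra hneg
      push Not at hneg
      have : (M : ℤ) * k ≤ 0 := by nlinarith
      omega
    refine ⟨(k - 1).toNat, ?_⟩
    apply PNat.eq
    show M * ((k - 1).toNat + 1) - r₀ = (d : ℕ)
    have hk' : (((k - 1).toNat : ℕ) : ℤ) = k - 1 := Int.toNat_of_nonneg (by omega)
    have hlt := hle (k - 1).toNat
    have : ((M * ((k - 1).toNat + 1) - r₀ : ℕ) : ℤ) = ((d : ℕ) : ℤ) := by
      rw [Nat.cast_sub hlt.le]
      push_cast
      rw [hk']
      linarith
    exact_mod_cast this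
  have key := (hi.hasSum_iff hrange).mpr h
  have hfun : (fun m : ℕ => g (M * (m + 1) - r₀)) =
      (fun d : ℕ+ => if (((d : ℕ) : ZMod M) = -((r₀ : ℤ) : ZMod M)) then g d else 0) ∘ i := by
    funext m
    simp only [Function.comp_apply]
    rw [if_pos]
    · rfl
    · show (((M * (m + 1) - r₀ : ℕ) : ℕ) : ZMod M) = -((r₀ : ℤ) : ZMod M)
      rw [Nat.cast_sub (hle m).le]
      push_cast
      simp
  rw [hfun]
  exact key

end Fermat.Agent.S48WA1
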